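/-
Row 37 (S43).  helper186, second team on `Lift.false_of_data`.

`Lift.Data p → False`, by building a `CoreP.Data p` on `W := G[p]`:
* restriction to `p`-torsion is a ring hom `End G →+* End_{𝔽_p} G[p]`;
* `ker (δ - 1) = im π^*` by counting; `G[p] = p ^ (k - 1) G` by induction on the `T`-order;
* (T2) `K_∞ ∩ K_0 ⊆ im π^*` by `Count.main_p` (on `G[p]`) and `Count.main_n`;
* the denominator trick gives R1, R2, R2' on `G[p]`;
* `CoreP.false_of_data`.
-/
import Fermat.Agent.S43.Lift.Defs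
import Fermat.Agent.S43.CoreP
import Fermat.Agent.S43.Count.MainP
import Fermat.Agent.S43.Count.MainN
import Fermat.Agent.S43.T2.Poly

set_option autoImplicit false

namespace Fermat.Agent.S43.Lift.Alt

section Tor

variable (p : ℕ) {G H K : Type*} [AddCommGroup G] [AddCommGroup H] [AddCommGroup K]

/-- the `p`-torsion subgroup -/
def tor (G : Type*) [AddCommGroup G] : AddSubgroup G := (nsmulAddMonoidHom (α := G) p).ker

theorem mem_tor {x : G} : x ∈ tor p G ↔ p • x = 0 := Iff.rfl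

theorem tor_nsmul (x : tor p G) : p • x = 0 := Subtype.ext x.2

instance torModule : Module (ZMod p) (tor p G) := AddCommGroup.zmodModule (tor_nsmul p)

/-- restriction of an additive map to the `p`-torsion -/
def res (f : G →+ H) : tor p G →+ tor p H :=
  (f.comp (tor p G).subtype).codRestrict (tor p H) (fun x => by
    show p • f x = 0
    rw [← map_nsmul, (mem_tor p).1 x.2, map_zero])

@[simp] theorem coe_res (f : G →+ H) (x : tor p G) : ((res p f x : tor p H) : H) = f x := rfl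

theorem coe_iterate_res (f : G →+ G) (j : ℕ) (x : tor p G) :
    ((((res p f)^[j]) x : tor p G) : G) = (f^[j]) x := by
  induction j with
  | zero => rfl
  | succ j ih => rw [Function.iterate_succ_apply', Function.iterate_succ_apply', coe_res, ih]

/-- restriction to the `p`-torsion as a ring homomorphism -/
def resEnd : AddMonoid.End G →+* Module.End (ZMod p) (tor p G) where
  toFun f := (res p f).toZModLinearMap p
  map_one' := by ext x; rfl
  map_mul' f g := by ext x; rfl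
  map_zero' := by ext x; rfl
  map_add' f g := by ext x; rfl

@[simp] theorem coe_resEnd (f : AddMonoid.End G) (x : tor p G) :
    ((resEnd p f x : tor p G) : G) = f x := rfl

end Tor

section EndLemmas

variable {G : Type*} [AddCommGroup G]

theorem end_sum_apply {ι : Type*} (s : Finset ι) (f : ι → AddMonoid.End G) (x : G) :
    (∑ i ∈ s, f i) x = ∑ i ∈ s, f i x :=
  AddMonoidHom.finsetSum_apply f s x

theorem end_pow_succ_apply (f : AddMonoid.End G) (j : ℕ) (x : G) :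
    (f ^ (j + 1)) x = f ((f ^ j) x) := by
  rw [pow_succ']; rfl

theorem end_pow_succ_apply' (f : AddMonoid.End G) (j : ℕ) (x : G) :
    (f ^ (j + 1)) x = (f ^ j) (f x) := by
  rw [pow_succ]; rfl

theorem end_pow_apply_eq_iterate (f : AddMonoid.End G) (j : ℕ) (x : G) :
    (f ^ j) x = ((f : G → G)^[j]) x := by
  induction j with
  | zero => rfl
  | succ j ih => rw [end_pow_succ_apply, ih, Function.iterate_succ_apply']

end EndLemmas

section Basic

variable {p : ℕ} [Fact p.Prime] (D : Data p)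

/-- `T = δ - 1` -/
def T : AddMonoid.End D.G := D.dl - 1

/-- the norm element -/
def Nm : AddMonoid.End D.G := ∑ j ∈ Finset.range (p ^ D.a), D.dl ^ j

theorem T_apply (x : D.G) : T D x = D.dl x - x := rfl

theorem inc_pr (x : D.G) : D.inc (D.pr x) = Nm D x := by
  rw [D.inc_pr, Nm, end_sum_apply]

theorem T_mul_Nm : T D * Nm D = 0 := by
  have h := mul_geom_sum D.dl (p ^ D.a)
  rw [D.dl_pow, sub_self] at h
  exact h

theorem dl_Nm (x : D.G) : D.dl (Nm D x) = Nm D x := by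
  have h := congrArg (fun f : AddMonoid.End D.G => f x) (T_mul_Nm D)
  exact sub_eq_zero.1 h

theorem dl_inc (y : D.G0) : D.dl (D.inc y) = D.inc y := by
  obtain ⟨x, rfl⟩ := D.pr_surj y
  rw [inc_pr, dl_Nm]

theorem S_Nm : Commute D.S (Nm D) :=
  Commute.sum_right _ _ _ (fun j _ => D.S_dl.pow_right j)

theorem S_inc (y : D.G0) : D.S (D.inc y) = D.inc (D.S0 y) := by
  obtain ⟨x, rfl⟩ := D.pr_surj y
  rw [← D.pr_S, inc_pr, inc_pr]
  exact congrArg (fun f : AddMonoid.End D.G => f x) (S_Nm D).eq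

theorem pr_dl_pow (j : ℕ) (x : D.G) : D.pr ((D.dl ^ j) x) = D.pr x := by
  induction j with
  | zero => rfl
  | succ j ih => rw [end_pow_succ_apply, D.pr_dl, ih]

theorem pr_inc (y : D.G0) : D.pr (D.inc y) = p ^ D.a • y := by
  obtain ⟨x, rfl⟩ := D.pr_surj y
  rw [D.inc_pr, map_sum, Finset.sum_congr rfl (fun j _ => pr_dl_pow D j x)]
  simp

theorem N0_sq (y : D.G0) : D.S0 (D.S0 y - y) = D.S0 y - y := by
  obtain ⟨x, rfl⟩ := D.pr_surj y
  have h := D.prK_i _ (D.t1 x)
  rwa [map_sub, D.pr_S] at h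

instance finG0 : Finite D.G0 := Finite.of_surjective D.pr D.pr_surj

theorem pk0 (y : D.G0) : p ^ D.k • y = 0 := by
  obtain ⟨x, rfl⟩ := D.pr_surj y
  rw [← map_nsmul, D.pk, map_zero]

theorem k_pos : 0 < D.k := lt_of_lt_of_le (Nat.succ_pos _) D.hk

theorem p_mul_pow : p * p ^ (D.k - 1) = p ^ D.k := by
  rw [← pow_succ', Nat.sub_add_cancel (k_pos D)]

/-- `ker (δ - 1) = im π^*` (counting). -/
theorem kerT (x : D.G) (hx : D.dl x = x) : ∃ y, x = D.inc y := by
  classical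
  let Tm : D.G →+ D.G := T D
  have h1 := Count.card_ker_mul_card_range Tm
  have h2 := Count.card_ker_mul_card_range D.pr
  have h3 : D.pr.range = ⊤ := AddMonoidHom.range_eq_top.2 D.pr_surj
  have h4 : D.pr.ker = Tm.range := by
    ext x
    constructor
    · intro hx
      obtain ⟨y, rfl⟩ := D.ker_pr x hx
      exact ⟨y, rfl⟩
    · rintro ⟨y, rfl⟩
      show D.pr (D.dl y - y) = 0
      rw [map_sub, D.pr_dl, sub_self]
  rw [h3, h4] at h2
  have h5 : Nat.card ↥(⊤ : AddSubgroup D.G0) = Nat.card D.G0 := by simp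
  have h6 : Nat.card ↥Tm.ker = Nat.card D.G0 := by
    have : Nat.card ↥Tm.range * Nat.card ↥Tm.ker = Nat.card ↥Tm.range * Nat.card D.G0 := by
      rw [← h5, h2, ← h1, mul_comm]
    exact Nat.eq_of_mul_eq_mul_left Nat.card_pos this
  have h7 : D.inc.range ≤ Tm.ker := by
    rintro _ ⟨y, rfl⟩
    show D.dl (D.inc y) - D.inc y = 0
    rw [dl_inc, sub_self]
  have h8 : Nat.card ↥D.inc.range = Nat.card D.G0 :=
    (Nat.card_congr (AddMonoidHom.ofInjective D.inc_inj).toEquiv).symm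
  have h9 : D.inc.range = Tm.ker := AddSubgroup.eq_of_le_of_card_ge h7 (by rw [h6, h8])
  have h10 : x ∈ Tm.ker := by
    show D.dl x - x = 0
    rw [hx, sub_self]
  rw [← h9] at h10
  obtain ⟨y, rfl⟩ := h10
  exact ⟨y, rfl⟩

/-- `π_* : G[p] → G0[p]` is onto. -/
theorem pr_surj_p (y : D.G0) (hy : p • y = 0) : ∃ x, p • x = 0 ∧ D.pr x = y := by
  obtain ⟨z, rfl⟩ := D.free0a y hy
  obtain ⟨x, rfl⟩ := D.pr_surj z
  refine ⟨p ^ (D.k - 1) • x, ?_, map_nsmul _ _ _⟩
  rw [smul_smul, p_mul_pow, D.pk]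

/-- the kernel of `π_*` on `G[p]` is `T G[p]`. -/
theorem ker_pr_p (x : D.G) (hx : p • x = 0) (h : D.pr x = 0) :
    ∃ y, p • y = 0 ∧ x = D.dl y - y := by
  obtain ⟨y, rfl⟩ := D.ker_pr x h
  have h1 : D.dl (p • y) = p • y := by
    rw [map_nsmul]
    rw [smul_sub] at hx
    exact sub_eq_zero.1 hx
  obtain ⟨y0, hy0⟩ := kerT D _ h1
  have h2 : p ^ (D.k - 1) • y0 = 0 := by
    apply D.inc_inj
    rw [map_nsmul, ← hy0, smul_smul, mul_comm, p_mul_pow, D.pk, map_zero]
  obtain ⟨y1, rfl⟩ := D.free0b y0 h2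
  refine ⟨y - D.inc y1, ?_, ?_⟩
  · rw [smul_sub, hy0, map_nsmul, sub_self]
  · rw [map_sub, dl_inc]
    abel

theorem one_add_T : 1 + T D = D.dl := by
  rw [T]
  abel

theorem exists_T_pow : ∃ R : AddMonoid.End D.G, T D ^ (p ^ D.a) = p • R :=
  T2.exists_pow_eq p D.a (T D) (by rw [one_add_T, D.dl_pow])

theorem exists_Nm : ∃ R : AddMonoid.End D.G, Nm D = T D ^ (p ^ D.a - 1) + p • R := by
  obtain ⟨R, hR⟩ := T2.exists_nm_eq p D.a (T D)
  rw [one_add_T] at hR
  exact ⟨R, hR⟩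

theorem T_pow_tor (x : D.G) (hx : p • x = 0) : (T D ^ (p ^ D.a)) x = 0 := by
  obtain ⟨R, hR⟩ := exists_T_pow D
  rw [hR]
  show p • R x = 0
  rw [← map_nsmul, hx, map_zero]

theorem Nm_tor (x : D.G) (hx : p • x = 0) : Nm D x = (T D ^ (p ^ D.a - 1)) x := by
  obtain ⟨R, hR⟩ := exists_Nm D
  rw [hR]
  show (T D ^ (p ^ D.a - 1)) x + p • R x = _
  rw [← map_nsmul, hx, map_zero, add_zero]

theorem tor_eq_aux (j : ℕ) (hj : j ≤ p ^ D.a) :
    ∀ w : D.G, p • w = 0 → (T D ^ j) w = 0 → ∃ z, w = p ^ (D.k - 1) • z := by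
  induction j with
  | zero =>
    intro w _ h
    exact ⟨0, by simpa using h⟩
  | succ j ih =>
    intro w hw h
    set v := (T D ^ j) w with hv
    have hTv : D.dl v = v := by
      have h1 : T D v = 0 := by
        rw [hv, ← end_pow_succ_apply]
        exact h
      exact sub_eq_zero.1 h1
    have hpv : p • v = 0 := by rw [hv, ← map_nsmul, hw, map_zero]
    obtain ⟨y0, hy0⟩ := kerT D v hTv
    have hy0p : p • y0 = 0 := D.inc_inj (by rw [map_nsmul, ← hy0, hpv, map_zero])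
    obtain ⟨z0, rfl⟩ := D.free0a y0 hy0p
    obtain ⟨z, rfl⟩ := D.pr_surj z0
    obtain ⟨R, hR⟩ := exists_Nm D
    have hv2 : v = (T D ^ j) (p ^ (D.k - 1) • (T D ^ (p ^ D.a - 1 - j)) z) := by
      rw [hy0, map_nsmul, inc_pr, hR]
      show p ^ (D.k - 1) • ((T D ^ (p ^ D.a - 1)) z + p • R z) = _
      rw [smul_add, smul_smul, mul_comm _ p, p_mul_pow, D.pk, add_zero, map_nsmul]
      congr 1
      have h2 : p ^ D.a - 1 = j + (p ^ D.a - 1 - j) := by omega
      conv_lhs => rw [h2, pow_add]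
      rfl
    obtain ⟨z', hz'⟩ := ih (by omega) (w - p ^ (D.k - 1) • (T D ^ (p ^ D.a - 1 - j)) z)
      (by rw [smul_sub, hw, smul_smul, p_mul_pow, D.pk, sub_zero])
      (by rw [map_sub, ← hv2, sub_self])
    exact ⟨z' + (T D ^ (p ^ D.a - 1 - j)) z, by rw [smul_add, ← hz']; abel⟩

/-- `G[p] = p ^ (k - 1) G`. -/
theorem tor_eq (w : D.G) (hw : p • w = 0) : ∃ z, w = p ^ (D.k - 1) • z :=
  tor_eq_aux D _ le_rfl w hw (T_pow_tor D w hw)

/-- the denominator trick -/
theorem rel (R : AddMonoid.End D.G) (hY : ∀ z, ∃ y, R z = D.inc y) (hpr : ∀ z, D.pr (R z) = 0)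
    (w : D.G) (hw : p • w = 0) : R w = 0 := by
  obtain ⟨z, rfl⟩ := tor_eq D w hw
  obtain ⟨y, hy⟩ := hY z
  have h1 : p ^ D.a • y = 0 := by rw [← pr_inc, ← hy, hpr]
  have h2 : D.k - 1 = (D.k - 1 - D.a) + D.a := by
    have := D.hk
    omega
  rw [map_nsmul, hy, ← map_nsmul, h2, pow_add, mul_smul, h1, smul_zero, map_zero]

end Basic

section T2

variable {p : ℕ} [Fact p.Prime] (D : Data p)

/-- `π^* (σ - 1) y` lies in `K_∞ ∩ K_0`. -/
theorem inc_N0_mem (y : D.G0) : D.inc (D.S0 y - y) ∈ D.Ki ∧ D.inc (D.S0 y - y) ∈ D.Kz := by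
  have h1 : D.inc (D.S0 y - y) = D.S (D.inc y) - D.inc y := by rw [map_sub, S_inc]
  have h2 : D.inc (D.S0 y - y) = D.S (D.inc y) - D.dl (D.inc y) := by rw [h1, dl_inc]
  exact ⟨h1 ▸ D.t1 _, h2 ▸ D.t3 _⟩

/-- (T2) on `G[p]`. -/
theorem t2_p (y : D.G) (hp : p • y = 0) (hi : y ∈ D.Ki) (hz : y ∈ D.Kz) :
    ∃ x : D.G0, p • x = 0 ∧ D.S0 x = x ∧ y = D.inc x := by
  have hP : 0 < p ^ D.a := pow_pos (Fact.out : p.Prime).pos _
  let Tm : D.G →+ D.G := T D
  let Nn : D.G →+ D.G := (D.S - 1 : AddMonoid.End D.G)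
  let N0 : D.G0 →+ D.G0 := (D.S0 - 1 : AddMonoid.End D.G0)
  have hTP : ∀ x : tor p D.G, ((res p Tm)^[p ^ D.a]) x = 0 := by
    intro x
    apply Subtype.ext
    rw [coe_iterate_res]
    exact (end_pow_apply_eq_iterate (T D) _ _).symm.trans (T_pow_tor D x x.2)
  have hsurj : Function.Surjective (res p D.pr) := by
    intro y0
    obtain ⟨x, hx, hxy⟩ := pr_surj_p D y0 y0.2
    exact ⟨⟨x, hx⟩, Subtype.ext hxy⟩
  have hker : ∀ x : tor p D.G, res p D.pr x = 0 → ∃ y, x = res p Tm y := by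
    intro x hx
    obtain ⟨y, hy, hxy⟩ := ker_pr_p D x x.2 (congrArg Subtype.val hx)
    exact ⟨⟨y, hy⟩, Subtype.ext hxy⟩
  have hincpr : ∀ x : tor p D.G, res p D.inc (res p D.pr x) = ((res p Tm)^[p ^ D.a - 1]) x := by
    intro x
    apply Subtype.ext
    rw [coe_iterate_res]
    show D.inc (D.pr x) = _
    rw [inc_pr, Nm_tor D x x.2]
    exact end_pow_apply_eq_iterate (T D) _ _
  have hinj : Function.Injective (res p D.inc) := by
    intro x y hxy
    exact Subtype.ext (D.inc_inj (congrArg Subtype.val hxy))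
  have hprN : ∀ x : tor p D.G, res p D.pr (res p Nn x) = res p N0 (res p D.pr x) := by
    intro x
    apply Subtype.ext
    show D.pr (D.S x - x) = D.S0 (D.pr x) - D.pr x
    rw [map_sub, D.pr_S]
  have hexact : ∀ y ∈ (res p N0).ker, ∃ x, y = res p N0 x := by
    intro y hy
    have h1 : D.S0 y = y := sub_eq_zero.1 (congrArg Subtype.val hy)
    obtain ⟨z, hz, hyz⟩ := D.exact0 y y.2 h1
    exact ⟨⟨z, hz⟩, Subtype.ext hyz⟩
  have hcard : Nat.card (tor p D.G0) = Nat.card ↥(res p N0).ker ^ 2 := by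
    have h1 := Count.card_ker_mul_card_range (res p N0)
    have h2 : (res p N0).range = (res p N0).ker := by
      apply le_antisymm
      · rintro _ ⟨x, rfl⟩
        apply Subtype.ext
        show D.S0 (D.S0 x - x) - (D.S0 x - x) = 0
        rw [N0_sq, sub_self]
      · intro y hy
        obtain ⟨x, rfl⟩ := hexact y hy
        exact ⟨x, rfl⟩
    rw [h2] at h1
    rw [← h1, sq]
  have key := Count.main_p (p ^ D.a) hP (res p Tm) (res p Nn) (res p N0) (res p D.pr)
    (res p D.inc) hTP hsurj hker hincpr hinj hprN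
    (D.Ki.comap (tor p D.G).subtype) (D.Kz.comap (tor p D.G).subtype)
    (fun x hx => D.Ki.sub_mem (D.Ki_dl _ hx) hx) (fun x hx => D.Kz.sub_mem (D.Kz_dl _ hx) hx)
    (fun x => D.t1 x)
    (fun x => by
      show (D.S x - x) - (D.dl x - x) ∈ D.Kz
      rw [sub_sub_sub_cancel_right]
      exact D.t3 x)
    (res p N0).ker
    (fun x hx => Subtype.ext (sub_eq_zero.2 (D.gam_i x hx)))
    (fun x hx => Subtype.ext (sub_eq_zero.2 (D.gam_z x hx)))
    (fun x hx => by
      obtain ⟨z, rfl⟩ := hexact x hx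
      exact (inc_N0_mem D z).1)
    (fun x hx => by
      obtain ⟨z, rfl⟩ := hexact x hx
      exact (inc_N0_mem D z).2)
    hexact hcard
  obtain ⟨x, hx, hyx⟩ := key ⟨y, hp⟩ hi hz
  exact ⟨x, x.2, sub_eq_zero.1 (congrArg Subtype.val hx), congrArg Subtype.val hyx⟩

/-- **(T2)** : `K_∞ ∩ K_0 ⊆ im π^*`. -/
theorem t2 (y : D.G) (hi : y ∈ D.Ki) (hz : y ∈ D.Kz) : ∃ x, y = D.inc x := by
  let N0 : D.G0 →+ D.G0 := (D.S0 - 1 : AddMonoid.End D.G0)
  obtain ⟨x, hx⟩ := Count.main_n p D.k (k_pos D) D.inc N0 D.pk D.free0a (D.Ki ⊓ D.Kz)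
    (fun x => inc_N0_mem D x)
    (fun y hy hp => by
      obtain ⟨x, hx, hSx, rfl⟩ := t2_p D y hp hy.1 hy.2
      obtain ⟨z, hz, rfl⟩ := D.exact0 x hx hSx
      exact ⟨z, hz, rfl⟩) y ⟨hi, hz⟩
  exact ⟨_, hx⟩

/-- R1 on `G[p]`. -/
theorem R1 (w : D.G) (hw : p • w = 0) : ((D.S - D.dl) * (D.S - 1) : AddMonoid.End D.G) w = 0 := by
  refine rel D _ (fun z => ?_) (fun z => ?_) w hw
  · exact t2 D _ (D.Ki.sub_mem (D.Ki_S _ (D.t1 z)) (D.Ki_dl _ (D.t1 z))) (D.t3 _)
  · show D.pr (D.S (D.S z - z) - D.dl (D.S z - z)) = 0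
    rw [map_sub, D.pr_S, D.pr_dl, D.prK_i _ (D.t1 z), sub_self]

/-- R2 on `G[p]`. -/
theorem R2 (w : D.G) (hw : p • w = 0) : ((D.S - D.dl) * (D.F - D.U) : AddMonoid.End D.G) w = 0 := by
  refine rel D _ (fun z => ?_) (fun z => ?_) w hw
  · exact t2 D _ (D.Ki.sub_mem (D.Ki_S _ (D.t2 z)) (D.Ki_dl _ (D.t2 z))) (D.t3 _)
  · show D.pr (D.S (D.F z - D.U z) - D.dl (D.F z - D.U z)) = 0
    rw [map_sub, D.pr_S, D.pr_dl, D.prK_i _ (D.t2 z), sub_self]

/-- R2' on `G[p]`. -/
theorem R2' (w : D.G) (hw : p • w = 0) : ((D.S - 1) * (D.F - D.Ut) : AddMonoid.End D.G) w = 0 := by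
  refine rel D _ (fun z => ?_) (fun z => ?_) w hw
  · exact t2 D _ (D.t1 _) (D.Kz.sub_mem (D.Kz_S _ (D.t4 z)) (D.t4 z))
  · show D.pr (D.S (D.F z - D.Ut z) - (D.F z - D.Ut z)) = 0
    rw [map_sub, D.pr_S, D.prK_z _ (D.t4 z), sub_self]

end T2

section Unit

variable {p : ℕ} [Fact p.Prime] (D : Data p)

theorem U_T : Commute D.U (T D) := D.U_dl.sub_right (Commute.one_right _)

theorem T_pow_eq_zero : T D ^ (p ^ D.a * D.k) = 0 := by
  obtain ⟨R, hR⟩ := exists_T_pow D
  rw [pow_mul, hR, smul_pow]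
  ext x
  show p ^ D.k • (R ^ D.k) x = 0
  exact D.pk _

theorem U_decomp (j : ℕ) : ∀ x : D.G, ∃ y z, x = D.U y + (T D ^ j) z := by
  induction j with
  | zero => exact fun x => ⟨0, x, by simp⟩
  | succ j ih =>
    intro x
    obtain ⟨y, z, rfl⟩ := ih x
    obtain ⟨y0, hy0⟩ := D.U0_surj (D.pr z)
    obtain ⟨y', rfl⟩ := D.pr_surj y0
    obtain ⟨z', hz'⟩ := D.ker_pr (z - D.U y') (by rw [map_sub, D.pr_U, hy0, sub_self])
    refine ⟨y + (T D ^ j) y', z', ?_⟩
    have h1 : z = D.U y' + T D z' := by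
      rw [T_apply, ← hz']
      abel
    have h2 : (T D ^ j) (D.U y') = D.U ((T D ^ j) y') :=
      congrArg (fun f : AddMonoid.End D.G => f y') ((U_T D).pow_right j).eq.symm
    rw [end_pow_succ_apply', map_add, add_assoc, ← h2, ← map_add, ← h1]

theorem U_surj : Function.Surjective D.U := by
  intro x
  obtain ⟨y, z, rfl⟩ := U_decomp D (p ^ D.a * D.k) x
  refine ⟨y, ?_⟩
  rw [T_pow_eq_zero]
  exact (add_zero _).symm

theorem U_inj : Function.Injective D.U := Finite.injective_iff_surjective.2 (U_surj D)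

theorem U_unit : IsUnit (resEnd p D.U) := by
  rw [Module.End.isUnit_iff]
  constructor
  · intro x y hxy
    exact Subtype.ext (U_inj D (congrArg Subtype.val hxy))
  · intro w
    obtain ⟨y, hy⟩ := U_surj D w
    refine ⟨⟨y, U_inj D ?_⟩, Subtype.ext hy⟩
    show D.U (p • y) = D.U 0
    rw [map_nsmul, hy, map_zero]
    exact w.2

theorem exists_tor0 : ∃ y : D.G0, y ≠ 0 ∧ p • y = 0 := by
  classical
  obtain ⟨y, hy⟩ := exists_ne (0 : D.G0)
  have hex : ∃ j, p ^ j • y = 0 := ⟨D.k, pk0 D y⟩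
  have h0 : Nat.find hex ≠ 0 := by
    intro h
    have := Nat.find_spec hex
    rw [h, pow_zero, one_smul] at this
    exact hy this
  obtain ⟨j, hj⟩ := Nat.exists_eq_succ_of_ne_zero h0
  refine ⟨p ^ j • y, Nat.find_min hex (by omega), ?_⟩
  have := Nat.find_spec hex
  rwa [hj, Nat.succ_eq_add_one, pow_succ', mul_smul] at this

end Unit

section Final

theorem resEnd_congr {p : ℕ} {G : Type*} [AddCommGroup G] (f g : AddMonoid.End G)
    (h : ∀ w, p • w = 0 → f w = g w) : resEnd p f = resEnd p g := by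
  ext x
  exact h x x.2

variable {p : ℕ} [Fact p.Prime] (D : Data p)

theorem Nm_res : CoreP.Nm (resEnd p (T D)) (p ^ D.a) = resEnd p (Nm D) := by
  rw [CoreP.Nm, Nm, map_sum]
  refine Finset.sum_congr rfl fun j _ => ?_
  rw [map_pow, ← one_add_T, map_add, map_one]

/-- the `p`-torsion contract -/
noncomputable def coreData : CoreP.Data p where
  W := tor p D.G
  acg := inferInstance
  mod := torModule p
  nontriv := by
    obtain ⟨y, hy, hpy⟩ := exists_tor0 D
    refine ⟨⟨⟨D.inc y, ?_⟩, 0, ?_⟩⟩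
    · show p • D.inc y = 0
      rw [← map_nsmul, hpy, map_zero]
    · intro h
      exact hy (D.inc_inj ((congrArg Subtype.val h).trans (map_zero _).symm))
  P := p ^ D.a
  κ := D.κ
  q := D.q
  hq := D.hq
  hκ := by
    rw [Ne, ZMod.natCast_eq_zero_iff]
    exact D.hκ
  T := resEnd p (T D)
  U := resEnd p D.U
  Ut := resEnd p D.Ut
  S := resEnd p D.S
  F := resEnd p D.F
  U_unit := U_unit D
  T_U := ((U_T D).map (resEnd p)).symm
  T_S := ((D.S_dl.sub_right (Commute.one_right _)).map (resEnd p)).symm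
  U_S := (D.S_U.map (resEnd p)).symm
  Ut_S := (D.S_Ut.map (resEnd p)).symm
  δ_pow := by rw [← map_one (resEnd p), ← map_add, one_add_T, ← map_pow, D.dl_pow]
  T_nilp := ⟨p ^ D.a, by
    rw [← map_pow, ← map_zero (resEnd p)]
    exact resEnd_congr _ _ (fun w hw => T_pow_tor D w hw)⟩
  H1 := by
    intro x hx
    have h1 : D.dl x = x := sub_eq_zero.1 (congrArg Subtype.val hx)
    obtain ⟨y0, hy0⟩ := kerT D x h1
    have h2 : p • y0 = 0 := D.inc_inj (by rw [map_nsmul, ← hy0, map_zero]; exact x.2)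
    obtain ⟨y, hy, rfl⟩ := pr_surj_p D y0 h2
    refine ⟨⟨y, hy⟩, Subtype.ext ?_⟩
    rw [Nm_res, hy0, inc_pr]
    rfl
  R1 := by
    rw [← map_one (resEnd p), ← map_add, one_add_T, ← map_sub, ← map_sub, ← map_mul,
      ← map_zero (resEnd p)]
    exact resEnd_congr _ _ (fun w hw => R1 D w hw)
  R2 := by
    rw [← map_one (resEnd p), ← map_add, one_add_T, ← map_sub, ← map_sub, ← map_mul,
      ← map_zero (resEnd p)]
    exact resEnd_congr _ _ (fun w hw => R2 D w hw)
  R2' := by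
    rw [← map_one (resEnd p), ← map_sub, ← map_sub, ← map_mul, ← map_zero (resEnd p)]
    exact resEnd_congr _ _ (fun w hw => R2' D w hw)
  tame := by
    rw [← map_mul, ← map_pow, ← map_mul, D.tame]
  hc := by
    intro x
    obtain ⟨y, hy, hxy⟩ := ker_pr_p D (D.Ut x - D.U x)
      (by
        have hx : p • (x : D.G) = 0 := x.2
        rw [smul_sub, ← map_nsmul, ← map_nsmul, hx, map_zero, map_zero, sub_zero])
      (by rw [map_sub, D.pr_U, D.pr_Ut, sub_self])
    exact ⟨⟨y, hy⟩, Subtype.ext hxy⟩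
  ι := D.J
  s := Finset.univ
  t := fun i => resEnd p (D.t i)
  a := fun i => resEnd p (D.e i)
  t_T := fun i => ((D.t_dl i).sub_right (Commute.one_right _)).map (resEnd p)
  t_S := fun i => (D.t_S i).map (resEnd p)
  t_F := fun i => (D.t_F i).map (resEnd p)
  t_U := fun i => (D.t_U i).map (resEnd p)
  t_t := fun i j => (D.t_t i j).map (resEnd p)
  t_nilp := fun i => by
    obtain ⟨n, hn⟩ := D.t_nil i
    refine ⟨n, ?_⟩
    rw [← map_pow, ← map_zero (resEnd p)]
    exact resEnd_congr _ _ hn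
  a_T := fun i => ((D.e_dl i).sub_right (Commute.one_right _)).map (resEnd p)
  a_U := fun i => (D.e_U i).map (resEnd p)
  a_Ut := fun i => (D.e_Ut i).map (resEnd p)
  H5 := by
    simp_rw [← map_mul]
    rw [← map_one (resEnd p), ← map_sub, ← map_sum]
    refine resEnd_congr _ _ (fun w hw => ?_)
    rw [end_sum_apply]
    exact D.H5 w hw
  exact := by
    intro x hx hSx
    have h1 : D.dl x = x := sub_eq_zero.1 (congrArg Subtype.val hx)
    obtain ⟨y0, hy0⟩ := kerT D x h1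
    have h2 : p • y0 = 0 := D.inc_inj (by rw [map_nsmul, ← hy0, map_zero]; exact x.2)
    have h3 : D.S0 y0 = y0 := by
      apply D.inc_inj
      rw [← S_inc, ← hy0]
      exact congrArg Subtype.val hSx
    obtain ⟨z, hz, rfl⟩ := D.exact0 y0 h2 h3
    refine ⟨⟨D.inc z, ?_⟩, Subtype.ext ?_, Subtype.ext ?_⟩
    · show p • D.inc z = 0
      rw [← map_nsmul, hz, map_zero]
    · show D.dl (D.inc z) - D.inc z = 0
      rw [dl_inc, sub_self]
    · show (x : D.G) = D.S (D.inc z) - D.inc z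
      rw [hy0, map_sub, S_inc]

/-- **The contract of row 37 is contradictory.** -/
theorem false_of_data (D : Data p) : False := CoreP.false_of_data (coreData D)

end Final

end Fermat.Agent.S43.Lift.Alt
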