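/-
Row 37 (S43).  helper239 (second team of helper126).  `Lift.Data p → False`, ASSEMBLED from what is on main:
* `T2/Abs.lean` (`Cnt.Data.smul_eq_zero_of_mem`: (T2) by counting + the denominator trick),
* `T2/Devissage.lean` ((E') on `G0[p]` ⟹ (E) and purity on `G0`),
* `CoreP.lean` (`CoreP.false_of_data`: the `p`-torsion core without `g`).

The `𝔽_p`-space of the core is `V = p ^ (k - 1) G` (NOT `G[p]`: the equality `G[p] = p ^ (k - 1) G` is never needed).
-/
import Fermat.Agent.S43.Lift.Defs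
import Fermat.Agent.S43.T2.Abs
import Fermat.Agent.S43.T2.Devissage
import Fermat.Agent.S43.T2.Fixed
import Fermat.Agent.S43.T2.Poly
import Fermat.Agent.S43.CoreP
import Fermat.Agent.S43.Count.Tools

set_option autoImplicit false

namespace Fermat.Agent.S43.Lift.Alt

/-! ### Restriction of additive endomorphisms to `m G` -/

section Res

/-- `A` is killed by `p`. -/
class Kill (p : ℕ) (A : Type*) [AddCommGroup A] : Prop where
  h : ∀ x : A, p • x = 0

/-- the `ZMod p`-module structure of a group killed by `p` -/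
@[reducible] noncomputable def Kill.mod (p : ℕ) (A : Type*) [AddCommGroup A] [Kill p A] : Module (ZMod p) A :=
  AddCommGroup.zmodModule Kill.h

attribute [local instance] Kill.mod

variable {G : Type*} [AddCommGroup G] (p m : ℕ)

/-- `m G` -/
def VV (G : Type*) [AddCommGroup G] (m : ℕ) : AddSubgroup G := (nsmulAddMonoidHom (α := G) m).range

theorem smul_mem_VV (y : G) : m • y ∈ VV G m := ⟨y, rfl⟩

theorem exists_of_mem_VV {x : G} (hx : x ∈ VV G m) : ∃ y, x = m • y := by
  obtain ⟨y, rfl⟩ := hx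
  exact ⟨y, rfl⟩

/-- an endomorphism as an additive homomorphism -/
def toHom (f : AddMonoid.End G) : G →+ G := f

theorem toHom_apply (f : AddMonoid.End G) (x : G) : toHom f x = f x := rfl

theorem toHom_iterate (f : AddMonoid.End G) (n : ℕ) (x : G) : (toHom f)^[n] x = (f ^ n) x := by
  induction n generalizing x with
  | zero => rfl
  | succ n ih =>
    rw [Function.iterate_succ_apply, ih, pow_succ]
    rfl

/-- restriction to `m G` -/
def resA (f : AddMonoid.End G) : VV G m →+ VV G m :=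
  ((toHom f).comp (VV G m).subtype).codRestrict (VV G m) (by
    rintro ⟨_, y, rfl⟩
    exact ⟨f y, (map_nsmul (toHom f) m y).symm⟩)

/-- restriction to `m G`, as a ring homomorphism -/
noncomputable def res [Kill p (VV G m)] : AddMonoid.End G →+* Module.End (ZMod p) (VV G m) where
  toFun f := AddMonoidHom.toZModLinearMap p (resA m f)
  map_one' := by ext; rfl
  map_mul' f g := by ext; rfl
  map_zero' := by ext; rfl
  map_add' f g := by ext; rfl

theorem res_apply [Kill p (VV G m)] (f : AddMonoid.End G) (x : VV G m) :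
    ((res p m f x : VV G m) : G) = f (x : G) := rfl

theorem res_eq_res [Kill p (VV G m)] {f g : AddMonoid.End G} (h : ∀ y, f (m • y) = g (m • y)) :
    res p m f = res p m g := by
  refine LinearMap.ext fun x => Subtype.ext ?_
  obtain ⟨y, hy⟩ := exists_of_mem_VV m x.2
  rw [res_apply, res_apply, hy, h]

end Res

/-! ### Elementary consequences of the contract -/

section Basic

variable {p : ℕ} [Fact p.Prime] (D : Data p)

/-- the norm element -/
def NmG : AddMonoid.End D.G := ∑ j ∈ Finset.range (p ^ D.a), D.dl ^ j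

theorem NmG_apply (x : D.G) : NmG D x = ∑ j ∈ Finset.range (p ^ D.a), (D.dl ^ j) x := by
  exact map_sum (AddMonoidHom.eval x : (D.G →+ D.G) →+ D.G) (fun j => D.dl ^ j) _

theorem inc_pr' (x : D.G) : D.inc (D.pr x) = NmG D x := by
  rw [D.inc_pr, NmG_apply]

theorem dl_mul_NmG : D.dl * NmG D = NmG D := by
  have h := mul_geom_sum D.dl (p ^ D.a)
  rw [D.dl_pow, sub_self, sub_mul, one_mul, sub_eq_zero] at h
  exact h

theorem dl_inc (y : D.G0) : D.dl (D.inc y) = D.inc y := by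
  obtain ⟨x, rfl⟩ := D.pr_surj y
  rw [inc_pr']
  exact congrArg (fun f : AddMonoid.End D.G => f x) (dl_mul_NmG D)

theorem S_NmG : Commute D.S (NmG D) :=
  Commute.sum_right _ _ _ fun _ _ => D.S_dl.pow_right _

theorem U_NmG : Commute D.U (NmG D) :=
  Commute.sum_right _ _ _ fun _ _ => D.U_dl.pow_right _

theorem S_inc (y : D.G0) : D.S (D.inc y) = D.inc (D.S0 y) := by
  obtain ⟨x, rfl⟩ := D.pr_surj y
  rw [← D.pr_S, inc_pr', inc_pr']
  exact congrArg (fun f : AddMonoid.End D.G => f x) (S_NmG D).eq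

theorem pk0 (y : D.G0) : p ^ D.k • y = 0 := by
  obtain ⟨x, rfl⟩ := D.pr_surj y
  rw [← map_nsmul, D.pk, map_zero]

theorem k_pos : 0 < D.k := lt_of_lt_of_le (Nat.succ_pos _) D.hk

theorem hdiv : ∀ j, j ≤ D.k → ∀ y : D.G0, p ^ j • y = 0 → ∃ z, y = p ^ (D.k - j) • z := by
  intro j hj
  obtain ⟨i, rfl⟩ : ∃ i, j = D.k - i := ⟨D.k - j, by omega⟩
  induction i with
  | zero => intro y _; exact ⟨y, by simp⟩
  | succ i ih =>
    intro y hy
    by_cases hi : D.k ≤ i
    · have e : D.k - (i + 1) = D.k - i := by omega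
      rw [e] at hy ⊢
      exact ih (Nat.sub_le _ _) y hy
    · rw [not_le] at hi
      have e1 : D.k - i = (D.k - (i + 1)) + 1 := by omega
      obtain ⟨z, hz⟩ := ih (Nat.sub_le _ _) y (by rw [e1, pow_succ', mul_smul, hy, smul_zero])
      have e2 : D.k - (D.k - i) = i := by omega
      have e3 : D.k - (D.k - (i + 1)) = i + 1 := by omega
      rw [e2] at hz
      obtain ⟨z', hz'⟩ := D.free0b z (by
        have e4 : D.k - 1 = (D.k - (i + 1)) + i := by omega
        rw [e4, pow_add, mul_smul, ← hz, hy])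
      exact ⟨z', by rw [e3, hz, hz', pow_succ, mul_smul]⟩

/-- `σ - 1` at level `Γ₀` -/
def N0 : D.G0 →+ D.G0 where
  toFun y := D.S0 y - y
  map_zero' := by rw [map_zero, sub_zero]
  map_add' x y := by rw [map_add]; abel

theorem N0_apply (y : D.G0) : N0 D y = D.S0 y - y := rfl

theorem N0_eq_zero {y : D.G0} : N0 D y = 0 ↔ D.S0 y = y := by
  rw [N0_apply, sub_eq_zero]

/-- `σ - 1` at level `Γ_H` -/
def aG : D.G →+ D.G where
  toFun y := D.S y - y
  map_zero' := by rw [map_zero, sub_zero]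
  map_add' x y := by rw [map_add]; abel

theorem aG_apply (x : D.G) : aG D x = D.S x - x := rfl

theorem pr_aG (x : D.G) : D.pr (aG D x) = N0 D (D.pr x) := by
  rw [aG_apply, N0_apply, map_sub, D.pr_S]

theorem N0_N0 (y : D.G0) : N0 D (N0 D y) = 0 := by
  obtain ⟨x, rfl⟩ := D.pr_surj y
  rw [← pr_aG, N0_eq_zero]
  exact D.prK_i _ (D.t1 x)

theorem hE1 : ∀ y, p • y = 0 → N0 D y = 0 → ∃ z, p • z = 0 ∧ y = N0 D z := by
  intro y hy h0
  exact D.exact0 y hy ((N0_eq_zero D).1 h0)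

/-- the data of the counting theorem of helper210 -/
def cnt : T2.Data p D.k D.a D.G D.G0 where
  hk := k_pos D
  hW := D.pk
  δ := D.dl
  a := aG D
  N₀ := N0 D
  pr := D.pr
  inc := D.inc
  hδ := D.dl_pow
  pr_surj := D.pr_surj
  pr_δ := D.pr_dl
  ker_pr := D.ker_pr
  inc_inj := D.inc_inj
  δ_inc := dl_inc D
  inc_pr := D.inc_pr
  pr_a := pr_aG D
  a_inc := fun y => by rw [aG_apply, N0_apply, S_inc, map_sub]
  hE := T2.dev_hE p D.k (N0 D) (k_pos D) (pk0 D) (N0_N0 D) (hE1 D) (hdiv D)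
  hpure := T2.dev_hpure p D.k (N0 D) (k_pos D) (pk0 D) (N0_N0 D) (hE1 D) (hdiv D)
  K := D.Ki
  K' := D.Kz
  K_δ := D.Ki_dl
  K'_δ := D.Kz_dl
  aK := D.t1
  bK' := fun x => by
    have : aG D x - (D.dl x - x) = D.S x - D.dl x := by rw [aG_apply]; abel
    rw [this]
    exact D.t3 x
  prK := fun x hx => (N0_eq_zero D).2 (D.prK_i x hx)
  prK' := fun x hx => (N0_eq_zero D).2 (D.prK_z x hx)
  γ := fun y hy => (N0_eq_zero D).2 (D.gam_i y hy)
  γ' := fun y hy => (N0_eq_zero D).2 (D.gam_z y hy)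

instance : Finite D.G0 := Finite.of_surjective D.pr D.pr_surj

/-- the exponent `m = p ^ (k - 1)` -/
def mm : ℕ := p ^ (D.k - 1)

/-- **the denominator trick** -/
theorem theta_zero (Θ : AddMonoid.End D.G) (h1 : ∀ z, Θ z ∈ D.Ki) (h2 : ∀ z, Θ z ∈ D.Kz)
    (h3 : ∀ z, D.pr (Θ z) = 0) (y : D.G) : Θ (mm D • y) = 0 := by
  have h := (cnt D).smul_eq_zero_of_mem (x := Θ y) (h1 y) (h2 y) (h3 y)
  have e : D.k - 1 = (D.k - 1 - D.a) + D.a := by have := D.hk; omega
  rw [map_nsmul, mm, e, pow_add, mul_smul, h, smul_zero]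

/-- `δ - 1` -/
def Tm : D.G →+ D.G where
  toFun y := D.dl y - y
  map_zero' := by rw [map_zero, sub_zero]
  map_add' x y := by rw [map_add]; abel

theorem Tm_apply (x : D.G) : Tm D x = D.dl x - x := rfl

/-- `ker (δ - 1) = im π^*` (Herbrand quotient of a finite module). -/
theorem exists_inc_of_dl {x : D.G} (hx : D.dl x = x) : ∃ w, x = D.inc w := by
  let NmH : D.G →+ D.G := toHom (NmG D)
  have hNm : ∀ z, NmH z = D.inc (D.pr z) := fun z => (inc_pr' D z).symm
  have h1 := Count.card_ker_mul_card_range (Tm D)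
  have h2 := Count.card_ker_mul_card_range NmH
  have hker : NmH.ker = (Tm D).range := by
    ext z
    constructor
    · intro hz
      have hz' : NmH z = 0 := hz
      rw [hNm] at hz'
      have hz0 : D.pr z = 0 := D.inc_inj (by rw [hz', map_zero])
      obtain ⟨y, hy⟩ := D.ker_pr z hz0
      exact ⟨y, hy.symm⟩
    · rintro ⟨y, rfl⟩
      show NmH (Tm D y) = 0
      rw [hNm, Tm_apply, map_sub, D.pr_dl, sub_self, map_zero]
  have hle : NmH.range ≤ (Tm D).ker := by
    rintro _ ⟨z, rfl⟩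
    show Tm D (NmH z) = 0
    rw [hNm, Tm_apply, dl_inc, sub_self]
  have hcard : Nat.card (Tm D).ker ≤ Nat.card NmH.range := by
    rw [hker, ← h1, mul_comm] at h2
    exact le_of_eq (Nat.eq_of_mul_eq_mul_right Nat.card_pos h2).symm
  have heq : NmH.range = (Tm D).ker := AddSubgroup.eq_of_le_of_card_ge hle hcard
  have hx' : x ∈ (Tm D).ker := by
    show Tm D x = 0
    rw [Tm_apply, hx, sub_self]
  rw [← heq] at hx'
  obtain ⟨z, rfl⟩ := hx'
  exact ⟨D.pr z, hNm z⟩

theorem U_surj : Function.Surjective D.U := by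
  have htop : (toHom D.U).range = ⊤ := by
    refine T2.eq_top_of_nak (p := p) D.k D.a D.pk (toHom D.dl) ?_ _ ?_ ?_
    · intro x
      rw [toHom_iterate, D.dl_pow]
      rfl
    · rintro _ ⟨y, rfl⟩
      exact ⟨D.dl y, congrArg (fun f : AddMonoid.End D.G => f y) D.U_dl.eq⟩
    · intro x
      obtain ⟨w, hw⟩ := D.U0_surj (D.pr x)
      obtain ⟨u, rfl⟩ := D.pr_surj w
      obtain ⟨y, hy⟩ := D.ker_pr (x - D.U u) (by rw [map_sub, D.pr_U, hw, sub_self])
      refine ⟨y, u, ?_⟩
      rw [toHom_apply, toHom_apply, ← hy]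
      abel
  intro x
  have : x ∈ (toHom D.U).range := by rw [htop]; trivial
  exact this

theorem U_isUnit : IsUnit D.U := by
  have hb : Function.Bijective D.U := ⟨Finite.injective_iff_surjective.2 (U_surj D), U_surj D⟩
  let e := AddEquiv.ofBijective (toHom D.U) hb
  refine ⟨⟨D.U, e.symm.toAddMonoidHom, ?_, ?_⟩, rfl⟩
  · ext x; exact e.apply_symm_apply x
  · ext x; exact e.symm_apply_apply x

theorem p_mul_mm : p * mm D = p ^ D.k := by
  have := k_pos D
  rw [mm, ← pow_succ', Nat.sub_add_cancel this]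

theorem p_smul_mm (y : D.G) : p • (mm D • y) = 0 := by
  rw [← mul_smul, p_mul_mm, D.pk]

end Basic

/-! ### The `p`-torsion contract on `V = p ^ (k - 1) G` -/

section Main

attribute [local instance] Kill.mod

variable {p : ℕ} [Fact p.Prime] (D : Data p)

instance killV : Kill p (VV D.G (mm D)) where
  h := by
    rintro ⟨x, hx⟩
    obtain ⟨y, rfl⟩ := exists_of_mem_VV _ hx
    exact Subtype.ext (p_smul_mm D y)

/-- restriction to `V` -/
noncomputable def RR : AddMonoid.End D.G →+* Module.End (ZMod p) (VV D.G (mm D)) := res p (mm D)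

theorem RR_apply (f : AddMonoid.End D.G) (x : VV D.G (mm D)) :
    ((RR D f x : VV D.G (mm D)) : D.G) = f (x : D.G) := rfl

theorem RR_eq {f g : AddMonoid.End D.G} (h : ∀ y, f (mm D • y) = g (mm D • y)) :
    RR D f = RR D g := res_eq_res p (mm D) h

theorem RR_eq_zero {f : AddMonoid.End D.G} (h : ∀ y, f (mm D • y) = 0) : RR D f = 0 := by
  rw [← map_zero (RR D)]
  exact RR_eq D h

/-- `T = δ - 1` on `V` -/
noncomputable def TT : Module.End (ZMod p) (VV D.G (mm D)) := RR D (D.dl - 1)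

theorem one_add_TT : 1 + TT D = RR D D.dl := by
  rw [TT, map_sub, map_one]; abel

theorem TT_apply (x : VV D.G (mm D)) : ((TT D x : VV D.G (mm D)) : D.G) = D.dl (x : D.G) - x := rfl

theorem Nm_eq : CoreP.Nm (TT D) (p ^ D.a) = RR D (NmG D) := by
  rw [CoreP.Nm, NmG, map_sum]
  refine Finset.sum_congr rfl fun j _ => ?_
  rw [one_add_TT, map_pow]

theorem nontrivV : Nontrivial (VV D.G (mm D)) := by
  obtain ⟨y, hy⟩ := exists_ne (0 : D.G0)
  -- a nonzero element of `G0[p]`
  have h1 : ∃ z : D.G0, z ≠ 0 ∧ p • z = 0 := by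
    by_contra hcon
    push Not at hcon
    have h2 : ∀ j : ℕ, p ^ j • y ≠ 0 := by
      intro j
      induction j with
      | zero => simpa using hy
      | succ j ih => rw [pow_succ', mul_smul]; exact hcon _ ih
    exact h2 D.k (pk0 D y)
  obtain ⟨z, hz, hpz⟩ := h1
  obtain ⟨z', rfl⟩ := D.free0a z hpz
  obtain ⟨x, rfl⟩ := D.pr_surj z'
  refine ⟨⟨⟨mm D • x, smul_mem_VV _ x⟩, 0, ?_⟩⟩
  intro h
  apply hz
  have h' : mm D • x = 0 := congrArg Subtype.val h
  rw [← map_nsmul]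
  show D.pr (mm D • x) = 0
  rw [h', map_zero]

theorem mem_of_Ki {x : D.G} (hx : x ∈ D.Ki) :
    D.S x - D.dl x ∈ D.Ki ∧ D.S x - D.dl x ∈ D.Kz ∧ D.pr (D.S x - D.dl x) = 0 :=
  ⟨D.Ki.sub_mem (D.Ki_S x hx) (D.Ki_dl x hx), D.t3 x, by
    rw [map_sub, D.pr_S, D.pr_dl, D.prK_i x hx, sub_self]⟩

theorem mem_of_Kz {x : D.G} (hx : x ∈ D.Kz) :
    D.S x - x ∈ D.Ki ∧ D.S x - x ∈ D.Kz ∧ D.pr (D.S x - x) = 0 :=
  ⟨D.t1 x, D.Kz.sub_mem (D.Kz_S x hx) hx, by rw [map_sub, D.pr_S, D.prK_z x hx, sub_self]⟩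

theorem relR1 : RR D ((D.S - D.dl) * (D.S - 1)) = 0 :=
  RR_eq_zero D (theta_zero D _ (fun z => (mem_of_Ki D (D.t1 z)).1)
    (fun z => (mem_of_Ki D (D.t1 z)).2.1) (fun z => (mem_of_Ki D (D.t1 z)).2.2))

theorem relR2 : RR D ((D.S - D.dl) * (D.F - D.U)) = 0 :=
  RR_eq_zero D (theta_zero D _ (fun z => (mem_of_Ki D (D.t2 z)).1)
    (fun z => (mem_of_Ki D (D.t2 z)).2.1) (fun z => (mem_of_Ki D (D.t2 z)).2.2))

theorem relR2' : RR D ((D.S - 1) * (D.F - D.Ut)) = 0 :=
  RR_eq_zero D (theta_zero D _ (fun z => (mem_of_Kz D (D.t4 z)).1)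
    (fun z => (mem_of_Kz D (D.t4 z)).2.1) (fun z => (mem_of_Kz D (D.t4 z)).2.2))

/-- an element of `V` fixed by `δ` is `π^*` of an element of `p ^ (k - 1) G0` -/
theorem exists_inc_of_TT {x : VV D.G (mm D)} (hx : TT D x = 0) :
    ∃ w : D.G0, p • w = 0 ∧ (x : D.G) = D.inc w := by
  have h1 : D.dl (x : D.G) = x := by
    have := congrArg Subtype.val hx
    rw [TT_apply] at this
    exact sub_eq_zero.1 this
  obtain ⟨w, hw⟩ := exists_inc_of_dl D h1
  refine ⟨w, D.inc_inj ?_, hw⟩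
  rw [map_nsmul, ← hw, map_zero]
  exact congrArg Subtype.val (Kill.h (p := p) x)

/-- `π^*` of an element of `G0[p]`, as an element of `V` -/
theorem exists_V_of_inc {w : D.G0} (hw : p • w = 0) :
    ∃ y : VV D.G (mm D), D.inc w = RR D (NmG D) y ∧ D.pr (y : D.G) = w := by
  obtain ⟨w', rfl⟩ := D.free0a w hw
  obtain ⟨y', rfl⟩ := D.pr_surj w'
  refine ⟨⟨mm D • y', smul_mem_VV _ y'⟩, ?_, ?_⟩
  · rw [RR_apply, ← inc_pr']
    show D.inc (mm D • D.pr y') = D.inc (D.pr (mm D • y'))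
    rw [map_nsmul D.pr]
  · show D.pr (mm D • y') = mm D • D.pr y'
    rw [map_nsmul]

/-- **The `p`-torsion contract `CoreP.Data` from `Lift.Data`.** -/
noncomputable def coreP : CoreP.Data p where
  W := VV D.G (mm D)
  acg := inferInstance
  mod := inferInstance
  nontriv := nontrivV D
  P := p ^ D.a
  κ := D.κ
  q := D.q
  hq := D.hq
  hκ := fun h => D.hκ ((ZMod.natCast_eq_zero_iff _ _).1 h)
  T := TT D
  U := RR D D.U
  Ut := RR D D.Ut
  S := RR D D.S
  F := RR D D.F
  U_unit := (U_isUnit D).map (RR D)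
  T_U := (D.U_dl.symm.sub_left (Commute.one_left _)).map (RR D)
  T_S := (D.S_dl.symm.sub_left (Commute.one_left _)).map (RR D)
  U_S := D.S_U.symm.map (RR D)
  Ut_S := D.S_Ut.symm.map (RR D)
  δ_pow := by rw [one_add_TT, ← map_pow, D.dl_pow, map_one]
  T_nilp := by
    obtain ⟨R', hR'⟩ := T2.exists_pow_eq p D.a (TT D)
      (by rw [one_add_TT, ← map_pow, D.dl_pow, map_one])
    refine ⟨p ^ D.a, ?_⟩
    rw [hR', ← Nat.cast_smul_eq_nsmul (ZMod p), CharP.cast_eq_zero, zero_smul]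
  H1 := by
    intro x hx
    obtain ⟨w, hpw, hw⟩ := exists_inc_of_TT D hx
    obtain ⟨y, hy, -⟩ := exists_V_of_inc D hpw
    exact ⟨y, Subtype.ext (by rw [Nm_eq, hw, hy])⟩
  R1 := by
    rw [one_add_TT, ← map_one (RR D), ← map_sub, ← map_sub, ← map_mul]
    exact relR1 D
  R2 := by
    rw [one_add_TT, ← map_sub, ← map_sub, ← map_mul]
    exact relR2 D
  R2' := by
    rw [← map_one (RR D), ← map_sub, ← map_sub, ← map_mul]
    exact relR2' D
  tame := by rw [← map_mul, D.tame, map_mul, map_pow]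
  hc := by
    rintro ⟨x, hx⟩
    obtain ⟨y, rfl⟩ := exists_of_mem_VV _ hx
    obtain ⟨y', hy'⟩ := D.ker_pr (D.Ut y - D.U y) (by rw [map_sub, D.pr_Ut, D.pr_U, sub_self])
    refine ⟨⟨mm D • y', smul_mem_VV _ y'⟩, Subtype.ext ?_⟩
    show D.Ut (mm D • y) - D.U (mm D • y) = D.dl (mm D • y') - mm D • y'
    rw [map_nsmul, map_nsmul, map_nsmul, ← smul_sub, ← smul_sub, hy']
  ι := D.J
  s := Finset.univ
  t := fun j => RR D (D.t j)
  a := fun j => RR D (D.e j)
  t_T := fun i => ((D.t_dl i).sub_right (Commute.one_right _)).map (RR D)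
  t_S := fun i => (D.t_S i).map (RR D)
  t_F := fun i => (D.t_F i).map (RR D)
  t_U := fun i => (D.t_U i).map (RR D)
  t_t := fun i j => (D.t_t i j).map (RR D)
  t_nilp := fun i => by
    obtain ⟨n, hn⟩ := D.t_nil i
    exact ⟨n, by rw [← map_pow]; exact RR_eq_zero D fun y => hn _ (p_smul_mm D y)⟩
  a_T := fun i => ((D.e_dl i).sub_right (Commute.one_right _)).map (RR D)
  a_U := fun i => (D.e_U i).map (RR D)
  a_Ut := fun i => (D.e_Ut i).map (RR D)
  H5 := by
    rw [← map_one (RR D), ← map_sub]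
    simp only [← map_mul]
    rw [← map_sum]
    refine RR_eq D fun y => ?_
    have h := D.H5 (mm D • y) (p_smul_mm D y)
    have e : (∑ j, D.t j * D.e j : AddMonoid.End D.G) (mm D • y)
        = ∑ j, D.t j (D.e j (mm D • y)) :=
      map_sum (AddMonoidHom.eval (mm D • y) : (D.G →+ D.G) →+ D.G) (fun j => D.t j * D.e j) _
    rw [e, ← h]
    rfl
  exact := by
    intro x hx hS
    obtain ⟨w, hpw, hw⟩ := exists_inc_of_TT D hx
    have hS' : D.S (x : D.G) = x := congrArg Subtype.val hS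
    have hw0 : D.S0 w = w := D.inc_inj (by rw [← S_inc, ← hw, hS'])
    obtain ⟨z, hpz, hz⟩ := D.exact0 w hpw hw0
    obtain ⟨y, hy, -⟩ := exists_V_of_inc D hpz
    refine ⟨RR D (NmG D) y, Subtype.ext ?_, Subtype.ext ?_⟩
    · rw [TT_apply, ← hy, dl_inc, sub_self]
      rfl
    · show (x : D.G) = D.S (RR D (NmG D) y : VV D.G (mm D)) - (RR D (NmG D) y : VV D.G (mm D))
      rw [← hy, S_inc, ← map_sub, ← hz, hw]

/-- **The contract `Lift.Data` is contradictory.** -/
theorem false_of_data (D : Data p) : False := CoreP.false_of_data (coreP D)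

end Main

end Fermat.Agent.S43.Lift.Alt
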