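/-
Row 37 (S43), helper126.  THE ABSTRACT CORE, relation form (Mathlib only).

helper94's core without `g` (`S43/Core/NoG.lean`), rewritten for operators on an abelian group `W` killed by `p`:
no filtration step `A`, no `β`, no inverse of `U`, and `U`, `Ut` are NOT supposed to commute with each other.
Inputs: `R1 : (S - δ)(S - 1) = 0`, `R2 : (S - δ)(F - U) = 0`, `R2' : (S - 1)(F - Ut) = 0`, the tame relation,
`Λ̄`-freeness (`hker`, `hkerNm`), `Ut = U` on `W / T W`, (E') on `W / T W`, `H5`.  Conclusion: `W = T W`.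
-/
import Mathlib

set_option autoImplicit false

namespace Fermat.Agent.S43.Lift

open Finset

variable {W : Type*} [AddCommGroup W]

theorem mul_ap (f g : AddMonoid.End W) (x : W) : (f * g) x = f (g x) := rfl
theorem one_ap (x : W) : (1 : AddMonoid.End W) x = x := rfl
theorem sub_ap (f g : AddMonoid.End W) (x : W) : (f - g) x = f x - g x := rfl
theorem add_ap (f g : AddMonoid.End W) (x : W) : (f + g) x = f x + g x := rfl
theorem zero_ap (x : W) : (0 : AddMonoid.End W) x = 0 := rfl

theorem sum_ap {ι : Type*} (s : Finset ι) (f : ι → AddMonoid.End W) (x : W) :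
    (∑ i ∈ s, f i) x = ∑ i ∈ s, f i x := by
  classical
  induction s using Finset.induction_on with
  | empty => simp
  | insert i s hi ih => rw [sum_insert hi, sum_insert hi, add_ap, ih]

theorem comm_ap {f g : AddMonoid.End W} (h : Commute f g) (x : W) : f (g x) = g (f x) := by
  rw [← mul_ap, h.eq, mul_ap]

/-- Nakayama for finitely many commuting nilpotent operators. -/
theorem nak {J : Type*} (t : J → AddMonoid.End W) (htt : ∀ i j, Commute (t i) (t j))
    (hnil : ∀ i, IsNilpotent (t i)) (V : AddSubgroup W) (hV : ∀ i, ∀ v ∈ V, t i v ∈ V)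
    (s : Finset J) :
    (∀ v ∈ V, ∃ f : J → W, (∀ i, f i ∈ V) ∧ v = ∑ i ∈ s, t i (f i)) → ∀ v ∈ V, v = 0 := by
  classical
  induction s using Finset.induction_on with
  | empty =>
    intro h v hv
    obtain ⟨f, _, hf⟩ := h v hv
    simpa using hf
  | insert i s hi ih =>
    intro h
    apply ih
    have hpow : ∀ n : ℕ, ∀ v ∈ V, (t i ^ n) v ∈ V := by
      intro n
      induction n with
      | zero => intro v hv; simpa using hv
      | succ n ihn =>
        intro v hv
        rw [pow_succ', mul_ap]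
        exact hV i _ (ihn v hv)
    have key : ∀ n : ℕ, ∀ v ∈ V, ∃ u ∈ V, ∃ f : J → W, (∀ j, f j ∈ V) ∧
        v = (t i ^ n) u + ∑ j ∈ s, t j (f j) := by
      intro n
      induction n with
      | zero =>
        intro v hv
        exact ⟨v, hv, fun _ => 0, fun _ => V.zero_mem, by simp [one_ap]⟩
      | succ n ihn =>
        intro v hv
        obtain ⟨u, hu, f, hf, e1⟩ := ihn v hv
        obtain ⟨g, hg, e2⟩ := h u hu
        rw [sum_insert hi] at e2
        refine ⟨g i, hg i, fun j => f j + (t i ^ n) (g j),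
          fun j => V.add_mem (hf j) (hpow n _ (hg j)), ?_⟩
        rw [e1, e2, map_add, map_sum, pow_succ, mul_ap, add_assoc]
        congr 1
        rw [add_comm, ← sum_add_distrib]
        refine sum_congr rfl fun j _ => ?_
        rw [map_add, comm_ap ((htt i j).pow_left n)]
    intro v hv
    obtain ⟨n, hn⟩ := hnil i
    obtain ⟨u, _, f, hf, e1⟩ := key n v hv
    exact ⟨f, hf, by rw [e1, hn, zero_ap, zero_add]⟩

/-- `∑_{j < κ P} δ^j = κ Nm`. -/
theorem sum_pow_mul (dl : AddMonoid.End W) (P : ℕ) (hdl : dl ^ P = 1) (κ : ℕ) :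
    ∑ j ∈ range (κ * P), dl ^ j = (κ : AddMonoid.End W) * ∑ j ∈ range P, dl ^ j := by
  induction κ with
  | zero => simp
  | succ n ih =>
    rw [Nat.succ_mul, sum_range_add, ih, Nat.cast_succ, add_mul, one_mul]
    congr 1
    refine sum_congr rfl fun j _ => ?_
    rw [pow_add, mul_comm n P, pow_mul, hdl, one_pow, one_mul]

/-- **The abstract core, relation form.** -/
theorem core {J : Type*} [Fintype J] (p : ℕ) (hpW : ∀ w : W, p • w = 0)
    (dl S F U Ut : AddMonoid.End W) (P κ q : ℕ) (hq : q = 1 + κ * P) (hκ : Nat.Coprime κ p)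
    (hdl : dl ^ P = 1)
    (S_dl : Commute S dl) (S_U : Commute S U) (S_Ut : Commute S Ut) (U_dl : Commute U dl)
    (tame : F * S = S ^ q * F)
    (R1 : (S - dl) * (S - 1) = 0) (R2 : (S - dl) * (F - U) = 0) (R2' : (S - 1) * (F - Ut) = 0)
    (hc0 : ∀ w, ∃ z, Ut w - U w = dl z - z)
    (hker : ∀ w, dl w = w → ∃ r, w = ∑ j ∈ range P, (dl ^ j) r)
    (hkerNm : ∀ w, ∑ j ∈ range P, (dl ^ j) w = 0 → ∃ r, w = dl r - r)
    (hE : ∀ w, (∃ r, S w - w = dl r - r) → ∃ s r, w = (S s - s) + (dl r - r))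
    (hU : Function.Surjective U)
    (t e : J → AddMonoid.End W) (t_t : ∀ i j, Commute (t i) (t j))
    (t_dl : ∀ i, Commute (t i) dl) (t_S : ∀ i, Commute (t i) S) (t_F : ∀ i, Commute (t i) F)
    (t_U : ∀ i, Commute (t i) U)
    (e_dl : ∀ i, Commute (e i) dl) (e_U : ∀ i, Commute (e i) U) (e_Ut : ∀ i, Commute (e i) Ut)
    (t_nil : ∀ i, IsNilpotent (t i))
    (H5 : S - 1 = ∑ j, t j * e j) :
    ∀ w : W, ∃ r, w = dl r - r := by
  classical
  set T : AddMonoid.End W := dl - 1 with hT
  set Nm : AddMonoid.End W := ∑ j ∈ range P, dl ^ j with hNm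
  set a : AddMonoid.End W := S - 1 with ha
  set b : AddMonoid.End W := F - U with hb
  set c : AddMonoid.End W := Ut - U with hc
  -- commutations
  have a_T : Commute a T := (S_dl.sub_left (Commute.one_left _)).sub_right (Commute.one_right _)
  have S_Nm : Commute S Nm := Commute.sum_right _ _ _ fun j _ => S_dl.pow_right j
  have a_Nm : Commute a Nm := S_Nm.sub_left (Commute.one_left _)
  have U_Nm : Commute U Nm := Commute.sum_right _ _ _ fun j _ => U_dl.pow_right j
  have a_U : Commute a U := S_U.sub_left (Commute.one_left _)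
  have a_Ut : Commute a Ut := S_Ut.sub_left (Commute.one_left _)
  have a_c : Commute a c := a_Ut.sub_right a_U
  have t_a : ∀ i, Commute (t i) a := fun i => (t_S i).sub_right (Commute.one_right _)
  have t_b : ∀ i, Commute (t i) b := fun i => (t_F i).sub_right (t_U i)
  have t_Nm : ∀ i, Commute (t i) Nm := fun i => Commute.sum_right _ _ _ fun j _ => (t_dl i).pow_right j
  have e_T : ∀ i, Commute (e i) T := fun i => (e_dl i).sub_right (Commute.one_right _)
  have e_c : ∀ i, Commute (e i) c := fun i => (e_Ut i).sub_right (e_U i)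
  -- ring identities
  have hTNm : T * Nm = 0 := by rw [hT, hNm, mul_geom_sum, hdl, sub_self]
  have hNmT : Nm * T = 0 := by rw [hT, hNm, geom_sum_mul, hdl, sub_self]
  have haa : a * a = T * a := by
    have : a * a - T * a = (S - dl) * (S - 1) := by rw [ha, hT]; noncomm_ring
    exact sub_eq_zero.1 (by rw [this, R1])
  have hab : a * b = T * b := by
    have : a * b - T * b = (S - dl) * (F - U) := by rw [ha, hT, hb]; noncomm_ring
    exact sub_eq_zero.1 (by rw [this, R2])
  have haF : a * F = Ut * a := by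
    have h1 : a * F - a * Ut = 0 := by rw [← mul_sub]; exact R2'
    rw [sub_eq_zero.1 h1, a_Ut.eq]
  have hTb : T * b = c * a := by
    have h1 : a * F = a * b + a * U := by rw [hb]; noncomm_ring
    rw [haF, hab, a_U.eq] at h1
    have h2 : c * a = Ut * a - U * a := by rw [hc, sub_mul]
    rw [h2, h1]
    abel
  have hSa : S * a = dl * a := by
    have : S * a - dl * a = (S - dl) * (S - 1) := by rw [ha]; noncomm_ring
    exact sub_eq_zero.1 (by rw [this, R1])
  have hSpow : ∀ j : ℕ, S ^ j * a = dl ^ j * a := by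
    intro j
    induction j with
    | zero => simp
    | succ n ih =>
      rw [pow_succ, mul_assoc, hSa, ← mul_assoc, (S_dl.pow_left n).eq, mul_assoc, ih, ← mul_assoc,
        ← pow_succ']
  have hsum : ∑ j ∈ range q, dl ^ j = 1 + (κ : AddMonoid.End W) * Nm := by
    rw [hq, add_comm 1, sum_range_succ, sum_pow_mul dl P hdl, mul_comm κ P, pow_mul, hdl, one_pow,
      add_comm]
  have hSq : S ^ q - 1 = (1 + (κ : AddMonoid.End W) * Nm) * a := by
    rw [← geom_sum_mul, ← hsum, sum_mul, sum_mul]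
    exact sum_congr rfl fun j _ => hSpow j
  have hFa : F * a = (1 + (κ : AddMonoid.End W) * Nm) * (Ut * a) := by
    have h1 : F * a = (S ^ q - 1) * F := by rw [ha, mul_sub, tame]; noncomm_ring
    rw [h1, hSq, mul_assoc, haF]
  have hNmUta : Nm * (Ut * a) = U * (Nm * a) := by
    have h1 : Ut * a = T * b + U * a := by rw [hTb, hc]; noncomm_ring
    rw [h1, mul_add, ← mul_assoc, hNmT, zero_mul, zero_add, ← mul_assoc, ← U_Nm.eq, mul_assoc]
  have hba : b * a = c * a + (κ : AddMonoid.End W) * (U * (Nm * a)) := by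
    rw [hb, sub_mul, hFa, add_mul, one_mul, mul_assoc, hNmUta, hc]
    noncomm_ring
  -- pointwise forms
  have Tap : ∀ w, T w = dl w - w := fun _ => rfl
  have aap : ∀ w, a w = S w - w := fun _ => rfl
  have cap : ∀ w, c w = Ut w - U w := fun _ => rfl
  have Nmap : ∀ w, Nm w = ∑ j ∈ range P, (dl ^ j) w := fun w => sum_ap _ _ w
  have hc0' : ∀ w, ∃ z, c w = T z := hc0
  have hker' : ∀ w, T w = 0 → ∃ r, w = Nm r := by
    intro w hw
    obtain ⟨r, hr⟩ := hker w (sub_eq_zero.1 hw)
    exact ⟨r, by rw [Nmap]; exact hr⟩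
  have hkerNm' : ∀ w, Nm w = 0 → ∃ r, w = T r := by
    intro w hw
    rw [Nmap] at hw
    exact hkerNm w hw
  have hE' : ∀ w, (∃ r, a w = T r) → ∃ s r, w = a s + T r := hE
  have h5 : ∀ w, a w = ∑ j, t j (e j w) := by
    intro w
    rw [H5, sum_ap]
    rfl
  -- the subgroup `V = Nm a W`
  let V : AddSubgroup W := (Nm * a : AddMonoid.End W).range
  have memV : ∀ w, Nm (a w) ∈ V := fun w => ⟨w, rfl⟩
  have hVt : ∀ i, ∀ v ∈ V, t i v ∈ V := by
    rintro i _ ⟨w, rfl⟩
    refine ⟨t i w, ?_⟩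
    show Nm (a (t i w)) = t i (Nm (a w))
    rw [← comm_ap (t_a i), ← comm_ap (t_Nm i)]
  choose zz hzz using hc0'
  -- key step
  have key : ∀ v : W, ∃ f : J → W, (∀ i, f i ∈ V) ∧
      (κ : AddMonoid.End W) (U (Nm (a v))) = ∑ i, t i (f i) := by
    intro v
    have hw : ∀ i, ∃ s : W, b (e i v) - a (zz (e i v)) = Nm (a s) := by
      intro i
      have h1 : T (b (e i v) - a (zz (e i v))) = 0 := by
        rw [map_sub, ← mul_ap T b, hTb, mul_ap, ← comm_ap a_T, ← hzz, comm_ap a_c, sub_self]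
      obtain ⟨r, hr⟩ := hker' _ h1
      have h2 : a (b (e i v) - a (zz (e i v))) = 0 := by
        rw [map_sub, ← mul_ap a b, hab, ← mul_ap a a, haa, mul_ap, mul_ap, ← map_sub, h1]
      rw [hr, comm_ap a_Nm] at h2
      obtain ⟨r', hr'⟩ := hkerNm' _ h2
      obtain ⟨s, r'', hs⟩ := hE' r ⟨r', hr'⟩
      refine ⟨s, ?_⟩
      rw [hr, hs, map_add, ← mul_ap Nm T, hNmT, zero_ap, add_zero]
    choose ss hss using hw
    have hz : ∀ i, ∃ r : W, zz (e i v) - e i (zz v) = Nm r := by
      intro i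
      apply hker'
      rw [map_sub, ← hzz, ← comm_ap (e_T i), ← hzz, comm_ap (e_c i), sub_self]
    choose rr hrr using hz
    set x := a v with hx
    set z := ∑ i, t i (zz (e i v)) with hzdef
    have e2 : b x - a z = ∑ i, t i (Nm (a (ss i))) := by
      rw [hx, h5 v, hzdef, map_sum, map_sum, ← sum_sub_distrib]
      refine sum_congr rfl fun i _ => ?_
      rw [← comm_ap (t_b i), ← comm_ap (t_a i), ← map_sub, hss]
    have e3 : a z - c x = ∑ i, t i (Nm (a (rr i))) := by
      have h1 : z = a (zz v) + ∑ i, t i (Nm (rr i)) := by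
        rw [h5 (zz v), hzdef, ← sum_add_distrib]
        refine sum_congr rfl fun i _ => ?_
        rw [← map_add, ← hrr, add_sub_cancel]
      have h2 : a (a (zz v)) = c x := by
        rw [← mul_ap a a, haa, mul_ap, ← comm_ap a_T, ← hzz, comm_ap a_c]
      rw [h1, map_add, h2, add_sub_cancel_left, map_sum]
      refine sum_congr rfl fun i _ => ?_
      rw [← comm_ap (t_a i), comm_ap a_Nm]
    have e1 : (κ : AddMonoid.End W) (U (Nm x)) = (b x - a z) + (a z - c x) := by
      rw [sub_add_sub_cancel, hx, ← mul_ap b a, hba, add_ap, mul_ap, add_sub_cancel_left]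
      rfl
    refine ⟨fun i => Nm (a (ss i)) + Nm (a (rr i)), fun i => V.add_mem (memV _) (memV _), ?_⟩
    rw [e1, e2, e3, ← sum_add_distrib]
    exact sum_congr rfl fun i _ => (map_add _ _ _).symm
  -- `V ≤ I V`
  obtain ⟨κ', hκ'⟩ : ∃ κ' : ℕ, ∀ w : W, κ' • (κ • w) = w := by
    rcases Nat.eq_zero_or_pos p with h0 | hpos
    · subst h0
      rw [Nat.coprime_zero_right] at hκ
      exact ⟨1, fun w => by rw [hκ, one_smul, one_smul]⟩
    rcases Nat.lt_or_ge 1 p with h1 | h1
    · obtain ⟨m, -, hm⟩ := Nat.exists_mul_mod_eq_one_of_coprime hκ h1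
      refine ⟨m, fun w => ?_⟩
      rw [smul_smul, mul_comm, ← Nat.div_add_mod (κ * m) p, hm, add_smul, mul_smul, hpW, zero_add,
        one_smul]
    · have hp1 : p = 1 := by omega
      refine ⟨0, fun w => ?_⟩
      have := hpW w
      rw [hp1, one_smul] at this
      rw [this, smul_zero, smul_zero]
  have hle : ∀ v ∈ V, ∃ f : J → W, (∀ i, f i ∈ V) ∧ v = ∑ i ∈ (univ : Finset J), t i (f i) := by
    rintro _ ⟨v, rfl⟩
    obtain ⟨v', rfl⟩ := hU v
    obtain ⟨f, hf, e1⟩ := key v'
    refine ⟨fun i => κ' • f i, fun i => V.nsmul_mem (hf i) κ', ?_⟩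
    have e2 : Nm (a (U v')) = U (Nm (a v')) := by
      rw [comm_ap a_U, ← comm_ap U_Nm]
    show Nm (a (U v')) = _
    rw [e2, ← hκ' (U (Nm (a v')))]
    have e3 : κ • U (Nm (a v')) = ∑ i, t i (f i) := e1
    rw [e3, smul_sum]
    exact sum_congr rfl fun i _ => (map_nsmul _ _ _).symm
  have hV0 := nak t t_t t_nil V hVt univ hle
  have h0 : ∀ w, Nm (a w) = 0 := fun w => hV0 _ (memV w)
  intro w
  obtain ⟨s, r, hs⟩ := hE' w (hkerNm' _ (h0 w))
  obtain ⟨r', hr'⟩ := hkerNm' _ (h0 s)
  exact ⟨r' + r, by rw [hs, hr', Tap, Tap, map_add]; abel⟩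

end Fermat.Agent.S43.Lift
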