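/-
Row 37 (S43), helper126.  **(T2) BY COUNTING**, exponent `p ^ k` (Mathlib only).

`G` a finite abelian group killed by `p ^ k`, `δ` of order dividing `P = p ^ a`, `pr : G ↠ G0` with kernel `T G`,
`inc : G0 ↪ G`, `inc ∘ pr = Nm`;  `N0` on `G0` with `ker N0 = im N0` pure;  `Ki, Kz ≤ G` stable under `δ` with
`A G ≤ Ki`, `(A - T) G ≤ Kz` (`pr A = N0 pr`) and (γ) `inc y ∈ Ki ∪ Kz → N0 y = 0`.
Then `Ki ⊓ Kz = inc (im N0)`.
-/
import Fermat.Agent.S43.Lift.Core

set_option autoImplicit false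

namespace Fermat.Agent.S43.Lift

open Finset Polynomial

section Poly

variable (p : ℕ) [Fact p.Prime]

theorem exists_eq_C_mul (f : ℤ[X]) (hf : f.map (Int.castRingHom (ZMod p)) = 0) :
    ∃ g : ℤ[X], f = C (p : ℤ) * g := by
  have : C (p : ℤ) ∣ f := by
    rw [C_dvd_iff_dvd_coeff]
    intro i
    have h := congrArg (fun r => coeff r i) hf
    simp only [coeff_map, coeff_zero] at h
    exact (ZMod.intCast_zmod_eq_zero_iff_dvd _ p).1 h
  exact this

theorem poly_geom' (a : ℕ) :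
    ∑ j ∈ range (p ^ a), (X : (ZMod p)[X]) ^ j = (X - 1) ^ (p ^ a - 1) := by
  have hpos : 0 < p ^ a := pow_pos (Fact.out : p.Prime).pos a
  have h := geom_sum_mul (X : (ZMod p)[X]) (p ^ a)
  have h1 : (X : (ZMod p)[X]) ^ p ^ a - 1 = (X - 1) ^ (p ^ a - 1) * (X - 1) := by
    rw [← pow_succ, Nat.sub_add_cancel hpos, sub_pow_char_pow, one_pow]
  rw [h1] at h
  exact mul_right_cancel₀ (X_sub_C_ne_zero (1 : ZMod p)) (by simpa using h)

variable {E : Type*} [Ring E]

/-- `Nm = T ^ (P - 1) + p h`. -/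
theorem exists_geom_eq (dl : E) (a : ℕ) :
    ∃ h : E, ∑ j ∈ range (p ^ a), dl ^ j = (dl - 1) ^ (p ^ a - 1) + (p : E) * h := by
  obtain ⟨g, hg⟩ := exists_eq_C_mul p (∑ j ∈ range (p ^ a), (X : ℤ[X]) ^ j - (X - 1) ^ (p ^ a - 1))
    (by
      have := poly_geom' p a
      simp only [Polynomial.map_sub, Polynomial.map_sum, Polynomial.map_pow, map_X,
        Polynomial.map_one]
      rw [this, sub_self])
  refine ⟨aeval dl g, ?_⟩
  have h := congrArg (aeval dl) hg
  simp only [map_sub, map_sum, map_pow, aeval_X, map_one, map_mul, eq_intCast, Int.cast_natCast,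
    map_natCast] at h
  rw [← h]
  abel

/-- `T ^ P = δ ^ P - 1 + p h`. -/
theorem exists_pow_eq (dl : E) (a : ℕ) :
    ∃ h : E, (dl - 1) ^ (p ^ a) = dl ^ (p ^ a) - 1 + (p : E) * h := by
  obtain ⟨g, hg⟩ := exists_eq_C_mul p (((X : ℤ[X]) - 1) ^ (p ^ a) - (X ^ (p ^ a) - 1))
    (by
      simp only [Polynomial.map_sub, Polynomial.map_pow, map_X, Polynomial.map_one]
      rw [sub_pow_char_pow, one_pow, sub_self])
  refine ⟨aeval dl g, ?_⟩
  have h := congrArg (aeval dl) hg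
  simp only [map_sub, map_pow, aeval_X, map_one, map_mul, eq_intCast, Int.cast_natCast,
    map_natCast] at h
  rw [← h]
  abel

end Poly

section Index

variable {G : Type*} [AddCommGroup G]

/-- range of an endomorphism -/
def rg (f : AddMonoid.End G) : AddSubgroup G := AddMonoidHom.range (f : G →+ G)

/-- preimage under an endomorphism -/
def cm (f : AddMonoid.End G) (L : AddSubgroup G) : AddSubgroup G := L.comap (f : G →+ G)

theorem mem_rg {f : AddMonoid.End G} {x : G} : x ∈ rg f ↔ ∃ y, f y = x := Iff.rfl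

theorem mem_cm {f : AddMonoid.End G} {L : AddSubgroup G} {x : G} : x ∈ cm f L ↔ f x ∈ L := Iff.rfl

theorem index_eq_mul (f : AddMonoid.End G) (L : AddSubgroup G) :
    L.index = (cm f L).index * (L ⊔ rg f).index := by
  rw [cm, AddSubgroup.index_comap, ← AddSubgroup.relIndex_sup_left, ← rg]
  exact (AddSubgroup.relIndex_mul_index le_sup_left).symm

theorem index_inf_mul_index_sup (H K : AddSubgroup G) :
    (H ⊓ K).index * (H ⊔ K).index = H.index * K.index := by
  rw [← AddSubgroup.relIndex_mul_index (inf_le_left : H ⊓ K ≤ H), AddSubgroup.inf_relIndex_left,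
    ← AddSubgroup.relIndex_mul_index (le_sup_right : K ≤ H ⊔ K), AddSubgroup.relIndex_sup_right]
  ring

theorem pow_mem_of_stable (f : AddMonoid.End G) (L : AddSubgroup G) (hL : ∀ x ∈ L, f x ∈ L)
    (m : ℕ) : ∀ x ∈ L, (f ^ m) x ∈ L := by
  induction m with
  | zero => intro x hx; simpa using hx
  | succ n ih =>
    intro x hx
    rw [pow_succ', mul_ap]
    exact hL _ (ih x hx)

variable [Finite G]

theorem index_le {H K : AddSubgroup G} (h : H ≤ K) : K.index ≤ H.index :=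
  AddSubgroup.index_antitone h

/-- LEMMA S, lower bound. -/
theorem index_lower (f : AddMonoid.End G) (m : ℕ) :
    ∀ L : AddSubgroup G, (∀ x ∈ L, f x ∈ L) → (cm (f ^ m) L ⊔ rg f).index ^ (m + 1) ≤ L.index := by
  induction m with
  | zero =>
    intro L _
    rw [zero_add, pow_one]
    exact index_le (le_trans (fun x hx => by simpa [mem_cm] using hx) le_sup_left)
  | succ n ih =>
    intro L hL
    have h1 := ih (cm f L) (fun x hx => hL _ hx)
    have e : cm (f ^ n) (cm f L) = cm (f ^ (n + 1)) L := by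
      ext x
      rw [mem_cm, mem_cm, mem_cm, pow_succ', mul_ap]
    rw [e] at h1
    have h2 : (cm (f ^ (n + 1)) L ⊔ rg f).index ≤ (L ⊔ rg f).index :=
      index_le (sup_le_sup_right (fun x hx => pow_mem_of_stable f L hL _ x hx) _)
    rw [index_eq_mul f L, pow_succ]
    exact Nat.mul_le_mul h1 h2

/-- LEMMA S, upper bound. -/
theorem index_upper (f : AddMonoid.End G) (m : ℕ) :
    ∀ L : AddSubgroup G, (∀ x ∈ L, f x ∈ L) → (∀ x, (f ^ m) x ∈ L) →
      L.index ≤ (L ⊔ rg f).index ^ m := by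
  induction m with
  | zero =>
    intro L _ h
    have : L = ⊤ := by
      rw [eq_top_iff]
      intro x _
      simpa using h x
    rw [this, AddSubgroup.index_top, pow_zero]
  | succ n ih =>
    intro L hL h
    have h1 := ih (cm f L) (fun x hx => hL _ hx) (fun x => by
      rw [mem_cm, ← mul_ap, ← pow_succ']
      exact h x)
    have h2 : (cm f L ⊔ rg f).index ≤ (L ⊔ rg f).index :=
      index_le (sup_le_sup_right (fun x hx => hL x hx) _)
    rw [index_eq_mul f L, pow_succ]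
    exact Nat.mul_le_mul (h1.trans (Nat.pow_le_pow_left h2 n)) le_rfl

end Index

section Main

variable {G G0 : Type*} [AddCommGroup G] [AddCommGroup G0]

theorem nat_ap (n : ℕ) (x : G) : (n : AddMonoid.End G) x = n • x := rfl

theorem natpow_ap (n m : ℕ) (x : G) : ((n : AddMonoid.End G) ^ m) x = n ^ m • x := by
  rw [← Nat.cast_pow]
  rfl

variable [Finite G]

/-- **(T2) by counting.** -/
theorem t2 (p : ℕ) [Fact p.Prime] (a k : ℕ) (hk : 1 ≤ k) (pk : ∀ x : G, p ^ k • x = 0)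
    (dl : AddMonoid.End G) (hdl : dl ^ (p ^ a) = 1)
    (pr : G →+ G0) (inc : G0 →+ G) (pr_surj : Function.Surjective pr)
    (ker_pr : ∀ x, pr x = 0 → ∃ y, x = dl y - y) (pr_dl : ∀ x, pr (dl x) = pr x)
    (inc_inj : Function.Injective inc)
    (inc_pr : ∀ x, inc (pr x) = ∑ j ∈ range (p ^ a), (dl ^ j) x)
    (N0 : AddMonoid.End G0) (hNN : ∀ y, N0 (N0 y) = 0) (hE : ∀ y, N0 y = 0 → ∃ z, y = N0 z)
    (hpure : ∀ z, N0 (p ^ (k - 1) • z) = 0 → ∃ y z', z = N0 y + p • z')
    (Ki Kz : AddSubgroup G) (Ki_dl : ∀ x ∈ Ki, dl x ∈ Ki) (Kz_dl : ∀ x ∈ Kz, dl x ∈ Kz)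
    (A : AddMonoid.End G) (prA : ∀ x, pr (A x) = N0 (pr x))
    (hAi : ∀ x, A x ∈ Ki) (hAz : ∀ x, A x - (dl x - x) ∈ Kz)
    (gam_i : ∀ y, inc y ∈ Ki → N0 y = 0) (gam_z : ∀ y, inc y ∈ Kz → N0 y = 0) :
    ∀ x ∈ Ki ⊓ Kz, ∃ y, x = inc (N0 y) := by
  classical
  have : Finite G0 := Finite.of_surjective pr pr_surj
  obtain ⟨k', rfl⟩ : ∃ k', k = k' + 1 := ⟨k - 1, by omega⟩
  rw [Nat.add_sub_cancel] at hpure
  have hPpos : 0 < p ^ a := pow_pos (Fact.out : p.Prime).pos a
  obtain ⟨P', hP'⟩ : ∃ P', p ^ a = P' + 1 := ⟨p ^ a - 1, by omega⟩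
  set T : AddMonoid.End G := dl - 1 with hT
  set pp : AddMonoid.End G := (p : AddMonoid.End G) with hpp
  set pp0 : AddMonoid.End G0 := (p : AddMonoid.End G0) with hpp0
  have Tap : ∀ x, T x = dl x - x := fun _ => rfl
  have prT : ∀ x, pr (T x) = 0 := fun x => by rw [Tap, map_sub, pr_dl, sub_self]
  have pp_T : Commute pp T := Nat.cast_commute p T
  set C0 : AddSubgroup G0 := rg pp0 ⊔ rg N0 with hC0
  set c : ℕ := C0.index with hc
  have cpos : 0 < c := Nat.pos_of_ne_zero AddSubgroup.index_ne_zero_of_finite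
  obtain ⟨h1, hh1⟩ := exists_geom_eq p dl a
  obtain ⟨h2, hh2⟩ := exists_pow_eq p dl a
  -- lower bound
  have low : ∀ K : AddSubgroup G, (∀ x ∈ K, dl x ∈ K) → (∀ y, inc y ∈ K → N0 y = 0) →
      c ^ (p ^ a * (k' + 1)) ≤ K.index := by
    intro K K_dl gam
    have K_T : ∀ x ∈ K, T x ∈ K := fun x hx => K.sub_mem (K_dl x hx) hx
    set L : AddSubgroup G := cm (pp ^ k') K ⊔ rg pp with hL
    have l1 : L.index ^ (k' + 1) ≤ K.index :=
      index_lower pp k' K (fun x hx => K.nsmul_mem hx p)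
    have L_T : ∀ x ∈ L, T x ∈ L := by
      intro x hx
      obtain ⟨y, hy, z, ⟨w, rfl⟩, rfl⟩ := AddSubgroup.mem_sup.1 hx
      rw [map_add]
      refine AddSubgroup.add_mem _ (AddSubgroup.mem_sup_left ?_) (AddSubgroup.mem_sup_right ?_)
      · rw [mem_cm, comm_ap (pp_T.pow_left k')]
        exact K_T _ hy
      · exact ⟨T w, comm_ap pp_T w⟩
    have l2 : (cm (T ^ P') L ⊔ rg T).index ^ (P' + 1) ≤ L.index := index_lower T P' L L_T
    have l3 : cm (T ^ P') L ⊔ rg T ≤ C0.comap pr := by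
      refine sup_le ?_ ?_
      · intro x hx
        obtain ⟨y, hy, z, ⟨w, rfl⟩, e⟩ := AddSubgroup.mem_sup.1 (mem_cm.1 hx)
        have e1 : inc (pr x) = y + p • (w + h1 x) := by
          rw [inc_pr, ← sum_ap, hh1, hP', Nat.add_sub_cancel, add_ap, ← e, smul_add, add_assoc]
          rfl
        have e2 : inc (p ^ k' • pr x) = (pp ^ k') y := by
          rw [map_nsmul, e1, smul_add, smul_smul, ← pow_succ, pk, add_zero, natpow_ap]
        have e3 := gam _ (by rw [e2]; exact hy)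
        obtain ⟨y', z', e4⟩ := hpure _ e3
        show pr x ∈ C0
        rw [e4]
        exact AddSubgroup.add_mem _ (AddSubgroup.mem_sup_right ⟨y', rfl⟩)
          (AddSubgroup.mem_sup_left ⟨z', rfl⟩)
      · rintro _ ⟨y, rfl⟩
        show pr (T y) ∈ C0
        rw [prT]
        exact C0.zero_mem
    have l4 : c ≤ (cm (T ^ P') L ⊔ rg T).index := by
      rw [hc, ← AddSubgroup.index_comap_of_surjective C0 pr_surj]
      exact index_le l3
    calc c ^ (p ^ a * (k' + 1)) = (c ^ (P' + 1)) ^ (k' + 1) := by rw [pow_mul, hP']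
      _ ≤ (L.index) ^ (k' + 1) :=
          Nat.pow_le_pow_left ((Nat.pow_le_pow_left l4 _).trans l2) _
      _ ≤ K.index := l1
  -- upper bound
  have up : Nat.card G ≤ (c * c) ^ (p ^ a * (k' + 1)) := by
    have u1 : (⊥ : AddSubgroup G).index ≤ ((⊥ : AddSubgroup G) ⊔ rg pp).index ^ (k' + 1) :=
      index_upper pp (k' + 1) ⊥ (fun x hx => by
        rw [AddSubgroup.mem_bot] at hx ⊢
        rw [hx, map_zero]) (fun x => by
        rw [AddSubgroup.mem_bot, natpow_ap, pk])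
    rw [bot_sup_eq, AddSubgroup.index_bot] at u1
    have u2 : (rg pp).index ≤ (rg pp ⊔ rg T).index ^ (p ^ a) :=
      index_upper T (p ^ a) (rg pp) (by
        rintro _ ⟨w, rfl⟩
        exact ⟨T w, comm_ap pp_T w⟩) (fun x => by
        rw [hT, hh2, hdl, sub_self, zero_add]
        exact ⟨h2 x, rfl⟩)
    have u3 : (rg pp ⊔ rg T).index ≤ (rg pp0).index := by
      rw [← AddSubgroup.index_comap_of_surjective (rg pp0) pr_surj]
      refine index_le ?_
      intro x hx
      obtain ⟨y0, hy0⟩ := (hx : pr x ∈ rg pp0)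
      obtain ⟨y, rfl⟩ := pr_surj y0
      obtain ⟨z, hz⟩ := ker_pr (x - p • y) (by
        rw [map_sub, map_nsmul, ← hy0]
        exact sub_self _)
      have : x = pp y + T z := by
        rw [Tap, ← hz]
        show x = p • y + _
        abel
      rw [this]
      exact AddSubgroup.add_mem _ (AddSubgroup.mem_sup_left ⟨y, rfl⟩)
        (AddSubgroup.mem_sup_right ⟨z, rfl⟩)
    have u4 : (rg pp0).index ≤ c * c := by
      rw [index_eq_mul N0 (rg pp0)]
      refine Nat.mul_le_mul (index_le ?_) le_rfl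
      refine sup_le ?_ ?_
      · rintro _ ⟨w, rfl⟩
        exact ⟨N0 w, (map_nsmul N0 p w).symm⟩
      · intro x hx
        obtain ⟨w, rfl⟩ := mem_rg.1 hx
        rw [mem_cm, hNN]
        exact AddSubgroup.zero_mem _
    calc Nat.card G ≤ (rg pp).index ^ (k' + 1) := u1
      _ ≤ ((c * c) ^ (p ^ a)) ^ (k' + 1) :=
          Nat.pow_le_pow_left (u2.trans (Nat.pow_le_pow_left (u3.trans u4) _)) _
      _ = (c * c) ^ (p ^ a * (k' + 1)) := by rw [pow_mul]
  -- the sum
  have s3 : (Ki ⊔ Kz).index ≤ Nat.card (rg N0) := by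
    have e1 : (rg N0).index = Nat.card (rg N0) := by
      have : rg N0 = (N0 : G0 →+ G0).ker := by
        ext y
        constructor
        · rintro ⟨z, rfl⟩
          exact hNN z
        · intro hy
          obtain ⟨z, hz⟩ := hE y hy
          exact ⟨z, hz.symm⟩
      conv_lhs => rw [this]
      exact AddSubgroup.index_ker _
    rw [← e1, ← AddSubgroup.index_comap_of_surjective (rg N0) pr_surj]
    refine index_le ?_
    intro x hx
    obtain ⟨y0, hy0⟩ := mem_rg.1 (hx : pr x ∈ rg N0)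
    obtain ⟨y, rfl⟩ := pr_surj y0
    obtain ⟨z, hz⟩ := ker_pr (x - A y) (by rw [map_sub, prA, hy0, sub_self])
    have : x = (A y + A z) + -(A z - (dl z - z)) := by
      rw [← hz]
      abel
    rw [this]
    exact AddSubgroup.add_mem _ (AddSubgroup.mem_sup_left (Ki.add_mem (hAi y) (hAi z)))
      (AddSubgroup.mem_sup_right (Kz.neg_mem (hAz z)))
  -- the image of `im N0`
  have Nm_mem : ∀ K : AddSubgroup G, (∀ x ∈ K, dl x ∈ K) → ∀ x ∈ K,
      ∑ j ∈ range (p ^ a), (dl ^ j) x ∈ K := fun K K_dl x hx =>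
    K.sum_mem fun j _ => pow_mem_of_stable dl K K_dl j x hx
  have hNmT : ∀ x, ∑ j ∈ range (p ^ a), (dl ^ j) (dl x - x) = 0 := by
    intro x
    rw [← sum_ap, ← Tap, ← mul_ap, hT, geom_sum_mul, hdl, sub_self, zero_ap]
  have hle : (rg N0).map inc ≤ Ki ⊓ Kz := by
    rintro _ ⟨_, ⟨y0, rfl⟩, rfl⟩
    obtain ⟨y, rfl⟩ := pr_surj y0
    have e1 : inc (N0 (pr y)) = ∑ j ∈ range (p ^ a), (dl ^ j) (A y) := by rw [← prA, inc_pr]
    have e2 : inc (N0 (pr y)) = ∑ j ∈ range (p ^ a), (dl ^ j) (A y - (dl y - y)) := by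
      rw [e1]
      have h : ∀ j : ℕ, (dl ^ j) (A y - (dl y - y)) = (dl ^ j) (A y) - (dl ^ j) (dl y - y) :=
        fun j => map_sub _ _ _
      simp only [h]
      rw [sum_sub_distrib, hNmT, sub_zero]
    exact ⟨by show inc (N0 (pr y)) ∈ Ki; rw [e1]; exact Nm_mem Ki Ki_dl _ (hAi y),
      by show inc (N0 (pr y)) ∈ Kz; rw [e2]; exact Nm_mem Kz Kz_dl _ (hAz y)⟩
  have hcard : Nat.card ↥(Ki ⊓ Kz) ≤ Nat.card ↥((rg N0).map inc) := by
    rw [AddSubgroup.card_map_of_injective inc_inj]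
    set X := c ^ (p ^ a * (k' + 1)) with hX
    have hXpos : 0 < X := pow_pos cpos _
    have f1 : Nat.card ↥(Ki ⊓ Kz) * (Ki.index * Kz.index) = Nat.card G * (Ki ⊔ Kz).index := by
      rw [← index_inf_mul_index_sup, ← AddSubgroup.index_mul_card (Ki ⊓ Kz)]
      ring
    have f2 : Nat.card ↥(Ki ⊓ Kz) * (X * X) ≤ Nat.card ↥(rg N0) * (X * X) := by
      calc Nat.card ↥(Ki ⊓ Kz) * (X * X) ≤ Nat.card ↥(Ki ⊓ Kz) * (Ki.index * Kz.index) :=
            Nat.mul_le_mul le_rfl (Nat.mul_le_mul (low Ki Ki_dl gam_i) (low Kz Kz_dl gam_z))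
        _ = Nat.card G * (Ki ⊔ Kz).index := f1
        _ ≤ (X * X) * Nat.card ↥(rg N0) := by
            refine Nat.mul_le_mul ?_ s3
            rw [hX, ← mul_pow]
            exact up
        _ = Nat.card ↥(rg N0) * (X * X) := mul_comm _ _
    exact Nat.le_of_mul_le_mul_right f2 (Nat.mul_pos hXpos hXpos)
  have heq := AddSubgroup.eq_of_le_of_card_ge hle hcard
  intro x hx
  rw [← heq] at hx
  obtain ⟨_, ⟨y, rfl⟩, rfl⟩ := hx
  exact ⟨y, rfl⟩

end Main

end Fermat.Agent.S43.Lift
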