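/-
Row 37 (S43).  THE CONTRACT AFTER "(T2) BY COUNTING" (helper126, reports #1638, #1643, #1647, #1651).

ONE exponent `n = p ^ k` (`k ≥ a + 1`, `p ^ a ∥ q - 1`), TWO finite groups, NO Weil pairing and NO model at level `Γ_H`,
NO modular forms, NO commutation of `U_q` with its transpose, NO inverse of `U_q`, NO Frobenius at level `Γ₀`.

`G  = W_H(n)` localised at `m` (Kummer classes of exponent `n` of the field of `Γ_H(q) ∩ Γ₀(M q)`; `m` = the `T_ℓ`),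
`G0 = W_0(n)` localised at `m` (level `Γ₀(M q)`), `pr = π_*`, `inc = π^*`,
`dl = δ` the diamond operator attached to `σ`, `S = ρ(σ)` (σ a generator of tame inertia at `q`),
`F = ρ(φ)` (φ a Frobenius at `q` fixing `μ_q`), `U = U_q`, `Ut = w⁻¹ U_q w`,
`Ki = K_∞ ∩ G` (classes with a representative `≡ 1` at ALL diamond conjugates of the Gauss valuation at `∞`),
`Kz = w⁻¹ K_∞ ∩ G`.

`Lift/Main.lean` : `false_of_data : Data p → False`.   `Lift/Top.lean` : frozen S43 from `NodeLift`.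

Which block proves which field:
* FREE : `pr_surj ker_pr pr_dl inc_inj inc_pr`;  `free0a free0b` (`J_0(Mq)[p^k]_m` is `ℤ/p^k`-free);
* TAME : `tame`, the choice of `σ, φ`;   OPS : the commutations, `pr_S pr_U pr_Ut`, `U0_surj` (`U_q = - w_q` at level `Γ₀`);
* TRIV : `Ki_dl Ki_S Kz_dl Kz_S t1 t2 t3 t4`;
* TRIV + level 0 (`K_∞^0 ∩ G0 ≤ ker (σ - 1)`: NodalTarget) : `prK_i prK_z` (norm of `u ≡ 1`), `gam_i gam_z` (Lagrange
  resolvent + `ker π^*` Eisenstein);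
* E0 : `exact0` (`ker (σ - 1) ≤ im (σ - 1)` on `G0[p]`);   DICT : `nontriv0`;
* H5 : `t e t_t t_dl t_S t_F t_U e_dl e_U e_Ut t_nil H5` (`e j` in the group ring of Galois over the `T_ℓ, ⟨d⟩`).
-/
import Mathlib

set_option autoImplicit false

namespace Fermat.Agent.S43.Lift

/-- The contract of row 37, exponent `p ^ k`. -/
structure Data (p : ℕ) [Fact p.Prime] : Type 1 where
  G : Type
  G0 : Type
  [acg : AddCommGroup G]
  [fin : Finite G]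
  [acg0 : AddCommGroup G0]
  [nontriv0 : Nontrivial G0]
  /-- `q = 1 + κ p ^ a`, `p ∤ κ` (`a = 0` allowed), exponent `p ^ k` with `k ≥ a + 1` -/
  a : ℕ
  k : ℕ
  κ : ℕ
  q : ℕ
  hq : q = 1 + κ * p ^ a
  hκ : ¬ p ∣ κ
  hk : a + 1 ≤ k
  pk : ∀ x : G, p ^ k • x = 0
  /-- operators at level `Γ_H` -/
  dl : AddMonoid.End G
  S : AddMonoid.End G
  F : AddMonoid.End G
  U : AddMonoid.End G
  Ut : AddMonoid.End G
  dl_pow : dl ^ (p ^ a) = 1
  S_dl : Commute S dl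
  S_U : Commute S U
  S_Ut : Commute S Ut
  U_dl : Commute U dl
  tame : F * S = S ^ q * F
  /-- the two degeneracy maps -/
  pr : G →+ G0
  inc : G0 →+ G
  pr_surj : Function.Surjective pr
  ker_pr : ∀ x, pr x = 0 → ∃ y, x = dl y - y
  pr_dl : ∀ x, pr (dl x) = pr x
  inc_inj : Function.Injective inc
  inc_pr : ∀ x, inc (pr x) = ∑ j ∈ Finset.range (p ^ a), (dl ^ j) x
  /-- level `Γ₀(M q)` -/
  S0 : AddMonoid.End G0
  U0 : AddMonoid.End G0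
  pr_S : ∀ x, pr (S x) = S0 (pr x)
  pr_U : ∀ x, pr (U x) = U0 (pr x)
  pr_Ut : ∀ x, pr (Ut x) = U0 (pr x)
  U0_surj : Function.Surjective U0
  free0a : ∀ y : G0, p • y = 0 → ∃ z, y = p ^ (k - 1) • z
  free0b : ∀ y : G0, p ^ (k - 1) • y = 0 → ∃ z, y = p • z
  /-- (E') on `G0[p]` -/
  exact0 : ∀ y : G0, p • y = 0 → S0 y = y → ∃ z, p • z = 0 ∧ y = S0 z - z
  /-- the two subgroups -/
  Ki : AddSubgroup G
  Kz : AddSubgroup G
  Ki_dl : ∀ x ∈ Ki, dl x ∈ Ki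
  Ki_S : ∀ x ∈ Ki, S x ∈ Ki
  Kz_dl : ∀ x ∈ Kz, dl x ∈ Kz
  Kz_S : ∀ x ∈ Kz, S x ∈ Kz
  t1 : ∀ x, S x - x ∈ Ki
  t2 : ∀ x, F x - U x ∈ Ki
  t3 : ∀ x, S x - dl x ∈ Kz
  t4 : ∀ x, F x - Ut x ∈ Kz
  prK_i : ∀ x ∈ Ki, S0 (pr x) = pr x
  prK_z : ∀ x ∈ Kz, S0 (pr x) = pr x
  gam_i : ∀ y, inc y ∈ Ki → S0 y = y
  gam_z : ∀ y, inc y ∈ Kz → S0 y = y
  /-- `ρ̄` unramified at `q` + Eichler-Shimura + Boston-Lenstra-Ribet on `G[p]` -/
  J : Type
  [finJ : Fintype J]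
  t : J → AddMonoid.End G
  e : J → AddMonoid.End G
  t_t : ∀ i j, Commute (t i) (t j)
  t_dl : ∀ i, Commute (t i) dl
  t_S : ∀ i, Commute (t i) S
  t_F : ∀ i, Commute (t i) F
  t_U : ∀ i, Commute (t i) U
  e_dl : ∀ i, Commute (e i) dl
  e_U : ∀ i, Commute (e i) U
  e_Ut : ∀ i, Commute (e i) Ut
  t_nil : ∀ i, ∃ n : ℕ, ∀ x : G, p • x = 0 → (t i ^ n) x = 0
  H5 : ∀ x : G, p • x = 0 → S x - x = ∑ j, t j (e j x)

attribute [instance] Data.acg Data.fin Data.acg0 Data.nontriv0 Data.finJ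

end Fermat.Agent.S43.Lift
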