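/-
Row 37 (S43), helper126.  `Lift.false_of_data : Lift.Data p → False` (Mathlib only).

(T2) by counting (`Lift/Count.lean`), the denominator trick (`k ≥ a + 1`), restriction to `G[p]`, the abstract core in
relation form (`Lift/Core.lean`).
-/
import Fermat.Agent.S43.Lift.Defs
import Fermat.Agent.S43.Lift.Count

set_option autoImplicit false

namespace Fermat.Agent.S43.Lift

open Finset

/-! ### restriction to the `p`-torsion -/

section Res

variable (p : ℕ) (G : Type*) [AddCommGroup G]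

/-- `G[p]`. -/
def tor : AddSubgroup G where
  carrier := {x | p • x = 0}
  add_mem' := by
    intro x y hx hy
    show p • (x + y) = 0
    rw [smul_add, show p • x = 0 from hx, show p • y = 0 from hy, add_zero]
  zero_mem' := smul_zero p
  neg_mem' := by
    intro x hx
    show p • (-x) = 0
    rw [smul_neg, show p • x = 0 from hx, neg_zero]

variable {p G}

theorem mem_tor {x : G} : x ∈ tor p G ↔ p • x = 0 := Iff.rfl

theorem map_mem_tor (f : AddMonoid.End G) {x : G} (hx : x ∈ tor p G) : f x ∈ tor p G := by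
  rw [mem_tor, ← map_nsmul, mem_tor.1 hx, map_zero]

variable (p G)

/-- restriction of the endomorphisms to `G[p]`. -/
def res : AddMonoid.End G →+* AddMonoid.End (tor p G) where
  toFun f := AddMonoidHom.mk' (fun x => ⟨f x, map_mem_tor f x.2⟩) (by
    intro x y
    apply Subtype.ext
    exact map_add f _ _)
  map_one' := rfl
  map_mul' _ _ := rfl
  map_zero' := rfl
  map_add' _ _ := rfl

variable {p G}

theorem res_ap (f : AddMonoid.End G) (x : tor p G) : ((res p G f x : tor p G) : G) = f x := rfl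

end Res

variable {p : ℕ} [Fact p.Prime]

namespace Data

variable (D : Data p)

/-- `N0 = S0 - 1`. -/
def N0 : AddMonoid.End D.G0 := D.S0 - 1

/-- `A = S - 1`. -/
def A : AddMonoid.End D.G := D.S - 1

/-- `T = δ - 1`. -/
def T : AddMonoid.End D.G := D.dl - 1

/-- the norm -/
def Nm : AddMonoid.End D.G := ∑ j ∈ range (p ^ D.a), D.dl ^ j

theorem N0_ap (y : D.G0) : D.N0 y = D.S0 y - y := rfl
theorem A_ap (x : D.G) : D.A x = D.S x - x := rfl
theorem T_ap (x : D.G) : D.T x = D.dl x - x := rfl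
theorem Nm_ap (x : D.G) : D.Nm x = ∑ j ∈ range (p ^ D.a), (D.dl ^ j) x := sum_ap _ _ _

theorem inc_pr' (x : D.G) : D.inc (D.pr x) = D.Nm x := by rw [Nm_ap, D.inc_pr]

theorem N0_eq_zero {y : D.G0} : D.N0 y = 0 ↔ D.S0 y = y := by rw [N0_ap, sub_eq_zero]

theorem pr_T (x : D.G) : D.pr (D.T x) = 0 := by rw [T_ap, map_sub, D.pr_dl, sub_self]

theorem pr_A (x : D.G) : D.pr (D.A x) = D.N0 (D.pr x) := by rw [A_ap, map_sub, D.pr_S, N0_ap]

theorem ker_pr' (x : D.G) (h : D.pr x = 0) : ∃ y, x = D.T y := D.ker_pr x h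

theorem T_Nm : D.T * D.Nm = 0 := by rw [T, Nm, mul_geom_sum, D.dl_pow, sub_self]

theorem Nm_T : D.Nm * D.T = 0 := by rw [T, Nm, geom_sum_mul, D.dl_pow, sub_self]

theorem kpos : ∃ k', D.k = k' + 1 ∧ D.a ≤ k' := ⟨D.k - 1, by have := D.hk; omega, by have := D.hk; omega⟩

theorem pk0 (y : D.G0) : p ^ D.k • y = 0 := by
  obtain ⟨x, rfl⟩ := D.pr_surj y
  rw [← map_nsmul, D.pk, map_zero]

theorem N0_N0 (y : D.G0) : D.N0 (D.N0 y) = 0 := by
  obtain ⟨x, rfl⟩ := D.pr_surj y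
  rw [← pr_A, N0_eq_zero]
  exact D.prK_i _ (D.t1 x)

/-- (E) at exponent `p ^ k`. -/
theorem exactN (y : D.G0) (hy : D.N0 y = 0) : ∃ z, y = D.N0 z := by
  obtain ⟨k', hk', _⟩ := D.kpos
  have key : ∀ j : ℕ, j ≤ D.k → ∀ y : D.G0, p ^ j • y = 0 → D.N0 y = 0 → ∃ z, y = D.N0 z := by
    intro j
    induction j with
    | zero =>
      intro _ y h _
      rw [pow_zero, one_smul] at h
      exact ⟨0, by rw [h, map_zero]⟩
    | succ j ih =>
      intro hj y h1 h2
      obtain ⟨z, hz, e⟩ := D.exact0 (p ^ j • y) (by rw [smul_smul, ← pow_succ', h1])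
        (N0_eq_zero D |>.1 (by rw [map_nsmul, h2, smul_zero]))
      obtain ⟨z', rfl⟩ := D.free0a z hz
      have hkj : D.k - 1 = j + (D.k - 1 - j) := by omega
      obtain ⟨z'', e2⟩ := ih (by omega) (y - D.N0 (p ^ (D.k - 1 - j) • z')) (by
        rw [smul_sub, e, ← N0_ap, ← map_nsmul, smul_smul, ← pow_add, ← hkj, sub_self])
        (by rw [map_sub, h2, N0_N0, sub_self])
      exact ⟨z'' + p ^ (D.k - 1 - j) • z', by rw [map_add, ← e2, sub_add_cancel]⟩
  exact key D.k le_rfl y (D.pk0 y) hy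

/-- purity of `ker N0`. -/
theorem pureN (z : D.G0) (hz : D.N0 (p ^ (D.k - 1) • z) = 0) : ∃ y z', z = D.N0 y + p • z' := by
  obtain ⟨k', hk', _⟩ := D.kpos
  obtain ⟨z1, hz1, e⟩ := D.exact0 (p ^ (D.k - 1) • z) (by
    rw [smul_smul, ← pow_succ', hk', Nat.add_sub_cancel, ← hk', D.pk0]) (N0_eq_zero D |>.1 hz)
  obtain ⟨z2, rfl⟩ := D.free0a z1 hz1
  obtain ⟨z3, e3⟩ := D.free0b (z - D.N0 z2) (by
    rw [smul_sub, e, ← N0_ap, map_nsmul, sub_self])
  exact ⟨z2, z3, by rw [← e3]; abel⟩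

/-- **(T2)**. -/
theorem T2 (x : D.G) (hi : x ∈ D.Ki) (hz : x ∈ D.Kz) : ∃ y, x = D.inc (D.N0 y) :=
  _root_.Fermat.Agent.S43.Lift.t2 p D.a D.k (by have := D.hk; omega) D.pk D.dl D.dl_pow D.pr D.inc D.pr_surj D.ker_pr D.pr_dl
    D.inc_inj D.inc_pr D.N0 D.N0_N0 D.exactN D.pureN D.Ki D.Kz D.Ki_dl D.Kz_dl D.A D.pr_A D.t1
    (fun x => by
      have : D.A x - (D.dl x - x) = D.S x - D.dl x := by rw [A_ap]; abel
      rw [this]
      exact D.t3 x)
    (fun y hy => (N0_eq_zero D).2 (D.gam_i y hy)) (fun y hy => (N0_eq_zero D).2 (D.gam_z y hy))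
    x ⟨hi, hz⟩

/-! ### consequences of FREE at exponent `p ^ k` -/

theorem T_inc (y : D.G0) : D.T (D.inc y) = 0 := by
  obtain ⟨x, rfl⟩ := D.pr_surj y
  rw [inc_pr', ← mul_ap, T_Nm, zero_ap]

theorem dl_inc (y : D.G0) : D.dl (D.inc y) = D.inc y := sub_eq_zero.1 (D.T_inc y)

theorem dl_pow_inc (j : ℕ) (y : D.G0) : (D.dl ^ j) (D.inc y) = D.inc y := by
  induction j with
  | zero => rfl
  | succ n ih => rw [pow_succ, mul_ap, dl_inc, ih]

theorem pr_inc (y : D.G0) : D.pr (D.inc y) = p ^ D.a • y := by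
  apply D.inc_inj
  rw [D.inc_pr, map_nsmul]
  simp only [dl_pow_inc]
  rw [sum_const, card_range]

theorem ker_T (x : D.G) (hx : D.T x = 0) : ∃ y, x = D.inc y := by
  classical
  have : Finite D.G0 := Finite.of_surjective D.pr D.pr_surj
  let Tm : D.G →+ D.G := D.T
  have e1 : Tm.ker.index = Nat.card Tm.range := AddSubgroup.index_ker _
  have e2 : D.pr.ker.index = Nat.card D.G0 := by
    rw [AddSubgroup.index_ker, AddMonoidHom.range_eq_top.2 D.pr_surj, AddSubgroup.card_top]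
  have e3 : D.pr.ker = Tm.range := by
    ext z
    constructor
    · intro hz
      obtain ⟨y, hy⟩ := D.ker_pr' z hz
      exact ⟨y, hy.symm⟩
    · rintro ⟨y, rfl⟩
      exact D.pr_T y
  have e4 := AddSubgroup.index_mul_card Tm.ker
  have e5 := AddSubgroup.index_mul_card D.pr.ker
  rw [e1] at e4
  rw [e2, e3] at e5
  have hpos : 0 < Nat.card Tm.range := Nat.card_pos
  have e6 : Nat.card Tm.ker = Nat.card D.G0 := by
    have : Nat.card Tm.range * Nat.card Tm.ker = Nat.card Tm.range * Nat.card D.G0 := by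
      rw [e4, ← e5, mul_comm]
    exact Nat.eq_of_mul_eq_mul_left hpos this
  have hle : D.inc.range ≤ Tm.ker := by
    rintro _ ⟨y, rfl⟩
    exact D.T_inc y
  have e7 : Nat.card D.inc.range = Nat.card D.G0 := by
    rw [AddMonoidHom.range_eq_map, AddSubgroup.card_map_of_injective D.inc_inj,
      AddSubgroup.card_top]
  have heq := AddSubgroup.eq_of_le_of_card_ge hle (by rw [e6, e7])
  have hx' : x ∈ Tm.ker := hx
  rw [← heq] at hx'
  obtain ⟨y, hy⟩ := hx'
  exact ⟨y, hy.symm⟩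

theorem ker_Nm (x : D.G) (hx : D.Nm x = 0) : ∃ y, x = D.T y := by
  apply D.ker_pr'
  apply D.inc_inj
  rw [inc_pr', hx, map_zero]

/-! ### the `p`-torsion -/

theorem pk' (x : D.G) : p • (p ^ (D.k - 1) • x) = 0 := by
  obtain ⟨k', hk', _⟩ := D.kpos
  rw [smul_smul, ← pow_succ', hk', Nat.add_sub_cancel, ← hk', D.pk]

theorem W3 (y : D.G0) (hy : p • y = 0) : ∃ r : D.G, p • r = 0 ∧ D.pr r = y := by
  obtain ⟨z, rfl⟩ := D.free0a y hy
  obtain ⟨r, rfl⟩ := D.pr_surj z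
  exact ⟨p ^ (D.k - 1) • r, D.pk' r, map_nsmul _ _ _⟩

theorem W1 (x : D.G) (hx : p • x = 0) (h : D.T x = 0) : ∃ r : D.G, p • r = 0 ∧ x = D.Nm r := by
  obtain ⟨y, rfl⟩ := D.ker_T x h
  obtain ⟨r, hr, rfl⟩ := D.W3 y (D.inc_inj (by rw [map_nsmul, hx, map_zero]))
  exact ⟨r, hr, D.inc_pr' r⟩

theorem W2 (x : D.G) (hx : p • x = 0) (h : D.Nm x = 0) : ∃ r : D.G, p • r = 0 ∧ x = D.T r := by
  obtain ⟨r0, rfl⟩ := D.ker_Nm x h
  obtain ⟨y, hy⟩ := D.ker_T (p • r0) (by rw [map_nsmul, hx])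
  obtain ⟨z, rfl⟩ := D.free0b y (D.inc_inj (by
    rw [map_nsmul, ← hy, smul_comm, D.pk', map_zero]))
  refine ⟨r0 - D.inc z, ?_, ?_⟩
  · rw [smul_sub, hy, map_nsmul, sub_self]
  · rw [map_sub, T_inc, sub_zero]

theorem W4 (x : D.G) (hx : p • x = 0) (h : D.pr x = 0) : ∃ r : D.G, p • r = 0 ∧ x = D.T r :=
  D.W2 x hx (by rw [← inc_pr', h, map_zero])

theorem T_pow_tor (x : D.G) (hx : p • x = 0) : (D.T ^ (p ^ D.a)) x = 0 := by
  obtain ⟨h, hh⟩ := exists_pow_eq p D.dl D.a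
  rw [T, hh, D.dl_pow, sub_self, zero_add, mul_ap, nat_ap, ← map_nsmul, hx, map_zero]

/-- `G[p] = p ^ (k - 1) G`. -/
theorem W5 (x : D.G) (hx : p • x = 0) : ∃ x' : D.G, x = p ^ (D.k - 1) • x' := by
  have key : ∀ j : ℕ, ∀ x : D.G, p • x = 0 → (D.T ^ j) x = 0 → ∃ x' : D.G, x = p ^ (D.k - 1) • x' := by
    intro j
    induction j with
    | zero =>
      intro x _ h
      exact ⟨0, by rw [smul_zero]; exact h⟩
    | succ j ih =>
      intro x hx h
      rw [pow_succ, mul_ap] at h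
      obtain ⟨g, hg⟩ := ih (D.T x) (by rw [← map_nsmul, hx, map_zero]) h
      obtain ⟨z0, hz0⟩ := D.free0b (D.pr g) (by rw [← map_nsmul, ← hg, pr_T])
      obtain ⟨g2, rfl⟩ := D.pr_surj z0
      obtain ⟨g3, hg3⟩ := D.ker_pr' (g - p • g2) (by rw [map_sub, hz0, map_nsmul, sub_self])
      have e1 : D.T x = D.T (p ^ (D.k - 1) • g3) := by
        rw [map_nsmul, ← hg3, smul_sub, smul_comm, D.pk', sub_zero, hg]
      obtain ⟨y, hy⟩ := D.ker_T (x - p ^ (D.k - 1) • g3) (by rw [map_sub, e1, sub_self])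
      obtain ⟨z, rfl⟩ := D.free0a y (D.inc_inj (by
        rw [map_nsmul, ← hy, smul_sub, hx, D.pk', sub_zero, map_zero]))
      exact ⟨g3 + D.inc z, by rw [smul_add, ← map_nsmul, ← hy]; abel⟩
  exact key _ x hx (D.T_pow_tor x hx)

/-- the denominator trick -/
theorem den (Θ : AddMonoid.End D.G) (h1 : ∀ x, Θ x ∈ D.Ki) (h2 : ∀ x, Θ x ∈ D.Kz)
    (h3 : ∀ x, D.pr (Θ x) = 0) (x : D.G) (hx : p • x = 0) : Θ x = 0 := by
  obtain ⟨k', hk', hak⟩ := D.kpos
  obtain ⟨x', rfl⟩ := D.W5 x hx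
  obtain ⟨y, hy⟩ := D.T2 (Θ x') (h1 x') (h2 x')
  have e1 : p ^ D.a • D.N0 y = 0 := by rw [← pr_inc, ← hy, h3]
  have e2 : D.k - 1 = (k' - D.a) + D.a := by omega
  rw [map_nsmul, hy, ← map_nsmul, e2, pow_add, mul_smul, e1, smul_zero, map_zero]

theorem pr_S_sub_dl (z : D.G) : D.pr (D.S z - D.dl z) = D.N0 (D.pr z) := by
  rw [map_sub, D.pr_S, D.pr_dl, N0_ap]

theorem R1 (x : D.G) (hx : p • x = 0) : ((D.S - D.dl) * (D.S - 1)) x = 0 :=
  D.den _ (fun x => D.Ki.sub_mem (D.Ki_S _ (D.t1 x)) (D.Ki_dl _ (D.t1 x))) (fun x => D.t3 _)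
    (fun x => by
      show D.pr (D.S (D.A x) - D.dl (D.A x)) = 0
      rw [pr_S_sub_dl, pr_A, N0_N0]) x hx

theorem R2 (x : D.G) (hx : p • x = 0) : ((D.S - D.dl) * (D.F - D.U)) x = 0 :=
  D.den _ (fun x => D.Ki.sub_mem (D.Ki_S _ (D.t2 x)) (D.Ki_dl _ (D.t2 x))) (fun x => D.t3 _)
    (fun x => by
      show D.pr (D.S (D.F x - D.U x) - D.dl (D.F x - D.U x)) = 0
      rw [pr_S_sub_dl, N0_eq_zero]
      exact D.prK_i _ (D.t2 x)) x hx

theorem R2' (x : D.G) (hx : p • x = 0) : ((D.S - 1) * (D.F - D.Ut)) x = 0 :=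
  D.den _ (fun x => D.t1 _) (fun x => D.Kz.sub_mem (D.Kz_S _ (D.t4 x)) (D.t4 x))
    (fun x => by
      show D.pr (D.A (D.F x - D.Ut x)) = 0
      rw [pr_A, N0_eq_zero]
      exact D.prK_z _ (D.t4 x)) x hx

theorem U_T : Commute D.U D.T := D.U_dl.sub_right (Commute.one_right _)

/-- `U` is onto on `G[p]`. -/
theorem U_surj (x : D.G) (hx : p • x = 0) : ∃ u : D.G, p • u = 0 ∧ x = D.U u := by
  have : Finite D.G0 := Finite.of_surjective D.pr D.pr_surj
  have hinj : Function.Injective D.U0 := Finite.injective_iff_surjective.2 D.U0_surj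
  have key : ∀ j : ℕ, ∃ u v : D.G, p • u = 0 ∧ p • v = 0 ∧ x = D.U u + (D.T ^ j) v := by
    intro j
    induction j with
    | zero => exact ⟨0, x, smul_zero _, hx, by rw [map_zero, zero_add]; rfl⟩
    | succ j ih =>
      obtain ⟨u, v, hu, hv, e⟩ := ih
      obtain ⟨y0, hy0⟩ := D.U0_surj (D.pr v)
      obtain ⟨u', hu', rfl⟩ := D.W3 y0 (hinj (by
        rw [map_nsmul, hy0, ← map_nsmul, hv, map_zero, map_zero]))
      obtain ⟨v', hv', e'⟩ := D.W4 (v - D.U u') (by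
        rw [smul_sub, hv, ← map_nsmul, hu', map_zero, sub_zero]) (by
        rw [map_sub, D.pr_U, hy0, sub_self])
      refine ⟨u + (D.T ^ j) u', v', ?_, hv', ?_⟩
      · rw [smul_add, hu, ← map_nsmul, hu', map_zero, add_zero]
      · have e2 : v = D.U u' + D.T v' := by rw [← e']; abel
        rw [e, e2, map_add, map_add, pow_succ, mul_ap, ← comm_ap (D.U_T.pow_right j), add_assoc]
  obtain ⟨u, v, hu, hv, e⟩ := key (p ^ D.a)
  exact ⟨u, hu, by rw [e, D.T_pow_tor v hv, add_zero]⟩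

end Data

/-- **The contract is contradictory.** -/
theorem false_of_data (D : Data p) : False := by
  classical
  let r := res p D.G
  have ext' : ∀ f g : AddMonoid.End (tor p D.G), (∀ x : tor p D.G, ((f x : tor p D.G) : D.G) = g x) →
      f = g := fun f g h => AddMonoidHom.ext fun x => Subtype.ext (h x)
  have rzero : ∀ Θ : AddMonoid.End D.G, (∀ x : D.G, p • x = 0 → Θ x = 0) → r Θ = 0 :=
    fun Θ h => ext' _ _ fun x => h x x.2
  have rsum : ∀ w : tor p D.G, ((∑ j ∈ range (p ^ D.a), (r D.dl ^ j) w : tor p D.G) : D.G) =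
      D.Nm w := by
    intro w
    rw [D.Nm_ap, AddSubgroup.val_finsetSum]
    refine sum_congr rfl fun j _ => ?_
    rw [← map_pow]
    rfl
  have key := core (W := tor p D.G) (J := D.J) p (fun w => Subtype.ext w.2)
    (r D.dl) (r D.S) (r D.F) (r D.U) (r D.Ut) (p ^ D.a) D.κ D.q D.hq
    ((Nat.Coprime.symm ((Nat.Prime.coprime_iff_not_dvd Fact.out).2 D.hκ)))
    (by rw [← map_pow, D.dl_pow, map_one])
    (D.S_dl.map r) (D.S_U.map r) (D.S_Ut.map r) (D.U_dl.map r)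
    (by rw [← map_mul, D.tame, map_mul, map_pow])
    (by rw [← map_one r, ← map_sub, ← map_sub, ← map_mul]; exact rzero _ D.R1)
    (by rw [← map_sub, ← map_sub, ← map_mul]; exact rzero _ D.R2)
    (by rw [← map_one r, ← map_sub, ← map_sub, ← map_mul]; exact rzero _ D.R2')
    (by
      intro w
      obtain ⟨z, hz, e⟩ := D.W4 (D.Ut w - D.U w) (by
        rw [smul_sub, ← map_nsmul, ← map_nsmul, mem_tor.1 w.2, map_zero, map_zero, sub_zero])
        (by rw [map_sub, D.pr_Ut, D.pr_U, sub_self])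
      exact ⟨⟨z, hz⟩, Subtype.ext e⟩)
    (by
      intro w hw
      obtain ⟨z, hz, e⟩ := D.W1 w w.2 (by
        rw [D.T_ap]
        exact sub_eq_zero.2 (congrArg Subtype.val hw))
      exact ⟨⟨z, hz⟩, Subtype.ext (by rw [rsum]; exact e)⟩)
    (by
      intro w hw
      obtain ⟨z, hz, e⟩ := D.W2 w w.2 (by
        rw [← rsum, hw]
        rfl)
      exact ⟨⟨z, hz⟩, Subtype.ext e⟩)
    (by
      rintro w ⟨r0, hr0⟩
      have h1 : D.S w - w = D.T r0 := congrArg Subtype.val hr0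
      have h2 : D.S0 (D.pr w) = D.pr w := by
        rw [← D.N0_eq_zero, ← D.pr_A, D.A_ap, h1, D.pr_T]
      obtain ⟨z, hz, e⟩ := D.exact0 (D.pr w) (by rw [← map_nsmul, mem_tor.1 w.2, map_zero]) h2
      obtain ⟨s, hs, rfl⟩ := D.W3 z hz
      obtain ⟨r1, hr1, e1⟩ := D.W4 (w - (D.S s - s)) (by
        rw [smul_sub, smul_sub, mem_tor.1 w.2, ← map_nsmul, hs, map_zero, sub_zero, sub_zero])
        (by rw [map_sub, e, map_sub, D.pr_S, sub_self])
      refine ⟨⟨s, hs⟩, ⟨r1, hr1⟩, Subtype.ext ?_⟩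
      show (w : D.G) = (D.S s - s) + D.T r1
      rw [← e1]
      abel)
    (by
      intro w
      obtain ⟨u, hu, e⟩ := D.U_surj w w.2
      exact ⟨⟨u, hu⟩, Subtype.ext e.symm⟩)
    (fun j => r (D.t j)) (fun j => r (D.e j)) (fun i j => (D.t_t i j).map r)
    (fun i => (D.t_dl i).map r) (fun i => (D.t_S i).map r) (fun i => (D.t_F i).map r)
    (fun i => (D.t_U i).map r) (fun i => (D.e_dl i).map r) (fun i => (D.e_U i).map r)
    (fun i => (D.e_Ut i).map r)
    (by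
      intro i
      obtain ⟨n, hn⟩ := D.t_nil i
      exact ⟨n, by rw [← map_pow]; exact rzero _ hn⟩)
    (by
      apply ext'
      intro x
      rw [sum_ap, AddSubgroup.val_finsetSum]
      exact D.H5 x x.2)
  -- a nonzero element of `G0[p]`
  obtain ⟨y0, hy0⟩ := exists_ne (0 : D.G0)
  have hex : ∃ j : ℕ, p ^ j • y0 = 0 := ⟨D.k, D.pk0 y0⟩
  have hj0 : Nat.find hex ≠ 0 := by
    intro h0
    have := Nat.find_spec hex
    rw [h0, pow_zero, one_smul] at this
    exact hy0 this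
  obtain ⟨m, hm⟩ := Nat.exists_eq_succ_of_ne_zero hj0
  have hy1 : p ^ m • y0 ≠ 0 := Nat.find_min hex (by omega)
  have hy2 : p • (p ^ m • y0) = 0 := by
    have := Nat.find_spec hex
    rw [hm] at this
    rw [smul_smul, ← pow_succ']
    exact this
  obtain ⟨w, hw, e⟩ := D.W3 _ hy2
  obtain ⟨r1, hr1⟩ := key ⟨w, hw⟩
  have h3 : w = D.T r1 := congrArg Subtype.val hr1
  exact hy1 (by rw [← e, h3, D.pr_T])

end Fermat.Agent.S43.Lift
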