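/-
Row 37 (S43), helper126.  TOP THEOREM for the contract `Lift.Data` (`S43/Lift/Defs.lean`):
`result_of_lift : NodeLift → (frozen S43)`.  No S44, the level `M q` may be divisible by `p`.
-/
import Fermat.Agent.S43.Top3
import Fermat.Agent.S43.Lift.Main

set_option autoImplicit false
open WeierstrassCurve WeierstrassCurve.Affine WeierstrassCurve.Affine.Point
open CuspForm ModularFormClass UpperHalfPlane
open FreyPackage

namespace Fermat.Agent.S43

/-- **Node LIFT**: the only node of row 37. -/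
def NodeLift : Prop :=
  ∀ (P : FreyPackage) (M q : ℕ), Hyp2 P M q → Nonempty (Lift.Data P.p)

theorem result_of_lift (hD : NodeLift)
    (P : FreyPackage) {N q : ℕ} (hcond : P.IsConductorLevel N) (hq : q.Prime) (hq2 : q ≠ 2)
    (hqp : q ≠ P.p) (hqN : q ∣ N)
    (hirr : GaloisRepIsIrreducible (K := AlgebraicClosure ℚ) ℚ P.freyCurve P.p)
    (hmod : P.ModularRepOfLevel N) (hunr : P.GaloisRepUnramifiedAt q) :
    ∃ M : ℕ, M ∣ N ∧ ¬ q ∣ M ∧ P.ModularRepOfLevel M := by
  obtain ⟨M, rfl⟩ := hqN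
  have hqM : ¬ q ∣ M := by
    rintro ⟨k, rfl⟩
    exact hcond.sq_not_dvd hq ⟨k, by ring⟩
  refine ⟨M, Dvd.intro_left q rfl, hqM, ?_⟩
  by_contra hnot
  have hyp : Hyp2 P M q :=
    { cond := by rw [mul_comm]; exact hcond
      hq := hq, hq2 := hq2, hqp := hqp, hirr := hirr
      hmod := by rw [mul_comm]; exact hmod
      hunr := hunr, hnot := hnot }
  exact Lift.false_of_data (hD P M q hyp).some

end Fermat.Agent.S43
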