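/-
Row 37 (S43).  helper239.  TOP THEOREM from the contract `Lift.Data` (helper126, `S43/Lift/Defs.lean`), using
`Lift.Alt.false_of_data` (`S43/Lift/Alt239.lean`).

* `result_of_lift  : NodeLift → (frozen S43)`             : NO S44, the level `M q` may be divisible by `p`;
* `result_of_lift' : NodeS44 → NodeLift' → (frozen S43)`  : level prime to `p` (`Hyp` of `Top.lean`).
-/
import Fermat.Agent.S43.Top3
import Fermat.Agent.S43.Lift.Alt239

set_option autoImplicit false
open WeierstrassCurve WeierstrassCurve.Affine WeierstrassCurve.Affine.Point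
open CuspForm ModularFormClass UpperHalfPlane
open FreyPackage

namespace Fermat.Agent.S43.Lift.Alt

/-- **Node LIFT** (any level). -/
def NodeLift : Prop :=
  ∀ (P : FreyPackage) (M q : ℕ), Hyp2 P M q → Nonempty (Lift.Data P.p)

/-- **Node LIFT** (level prime to `p`). -/
def NodeLift' : Prop :=
  ∀ (P : FreyPackage) (M q : ℕ), Hyp P M q → Nonempty (Lift.Data P.p)

theorem NodeLift.prime (h : NodeLift) : NodeLift' := fun P M q hyp => h P M q hyp.toHyp2

theorem result_of_lift (hD : NodeLift)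
    (P : FreyPackage) {N q : ℕ} (hcond : P.IsConductorLevel N) (hq : q.Prime) (hq2 : q ≠ 2)
    (hqp : q ≠ P.p) (hqN : q ∣ N)
    (hirr : GaloisRepIsIrreducible (K := AlgebraicClosure ℚ) ℚ P.freyCurve P.p)
    (hmod : P.ModularRepOfLevel N) (hunr : P.GaloisRepUnramifiedAt q) :
    ∃ M : ℕ, M ∣ N ∧ ¬ q ∣ M ∧ P.ModularRepOfLevel M :=
  result_of_deform2 (fun P M q hyp => (false_of_data (hD P M q hyp).some).elim)
    P hcond hq hq2 hqp hqN hirr hmod hunr

theorem result_of_lift' (h44 : NodeS44) (hD : NodeLift')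
    (P : FreyPackage) {N q : ℕ} (hcond : P.IsConductorLevel N) (hq : q.Prime) (hq2 : q ≠ 2)
    (hqp : q ≠ P.p) (hqN : q ∣ N)
    (hirr : GaloisRepIsIrreducible (K := AlgebraicClosure ℚ) ℚ P.freyCurve P.p)
    (hmod : P.ModularRepOfLevel N) (hunr : P.GaloisRepUnramifiedAt q) :
    ∃ M : ℕ, M ∣ N ∧ ¬ q ∣ M ∧ P.ModularRepOfLevel M :=
  result_of_nodes h44 (fun P M q hyp => (false_of_data (hD P M q hyp).some).elim)
    P hcond hq hq2 hqp hqN hirr hmod hunr

end Fermat.Agent.S43.Lift.Alt
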